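import Fermat.Agent.S41.P.Pair

/-!
# S41, module P, file Adj: restriction and transfer are adjoint
-/

set_option autoImplicit false

open Matrix.SpecialLinearGroup ModularGroup
open scoped MatrixGroups
open Fermat.Agent.S16.Crossing (Uu)
open Fermat.Agent.Lib.EllPar (KillsEllPar)

namespace Fermat.Agent.S41.P

variable {Γ Γ' : Subgroup SL(2, ℤ)} {R : Type*} [CommRing R]

/-! ### auxiliary lemmas -/

theorem Adj_rel (γ : Γ) (x : Γ ⧸ Γ'.subgroupOf Γ) :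
    ((x.out⁻¹ : Γ) : SL(2, ℤ)) * (γ : SL(2, ℤ)) =
      ((coresCoc γ x : Γ) : SL(2, ℤ)) * (((γ⁻¹ • x).out⁻¹ : Γ) : SL(2, ℤ)) := by
  rw [← Subgroup.coe_mul, ← Subgroup.coe_mul]
  congr 1
  simp [coresCoc, mul_assoc]

theorem Adj_cores_op_apply [(Γ'.subgroupOf Γ).FiniteIndex] (ψ : Additive Γ' →+ R) (γ : Γ) :
    (coresCorr Γ Γ').op R ψ (Additive.ofMul γ) =
      ∑ᶠ x : Γ ⧸ Γ'.subgroupOf Γ,
        ψ (Additive.ofMul (⟨coresCoc γ x, coresCoc_mem γ x⟩ : Γ')) := by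
  rw [Corr.op_apply]
  exact (@finsum_eq_sum_of_fintype _ _ _ (coresCorr Γ Γ').fin _).symm

theorem Adj_left [(Γ'.subgroupOf Γ).FiniteIndex] {ψ : Additive Γ' →+ R} {u : SL(2, ℤ) → R}
    (hleft : ∀ (γ : Γ') (g : SL(2, ℤ)), u ((γ : SL(2, ℤ)) * g) = u g + ψ (Additive.ofMul γ))
    (γ : Γ) (g : SL(2, ℤ)) :
    ∑ᶠ x : Γ ⧸ Γ'.subgroupOf Γ, u (((x.out⁻¹ : Γ) : SL(2, ℤ)) * ((γ : SL(2, ℤ)) * g)) =
      ∑ᶠ x : Γ ⧸ Γ'.subgroupOf Γ, u (((x.out⁻¹ : Γ) : SL(2, ℤ)) * g) +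
        (coresCorr Γ Γ').op R ψ (Additive.ofMul γ) := by
  have h1 : ∀ x : Γ ⧸ Γ'.subgroupOf Γ,
      u (((x.out⁻¹ : Γ) : SL(2, ℤ)) * ((γ : SL(2, ℤ)) * g)) =
        u ((((γ⁻¹ • x).out⁻¹ : Γ) : SL(2, ℤ)) * g) +
          ψ (Additive.ofMul (⟨coresCoc γ x, coresCoc_mem γ x⟩ : Γ')) := by
    intro x
    rw [← mul_assoc, Adj_rel, mul_assoc]
    exact hleft ⟨coresCoc γ x, coresCoc_mem γ x⟩ _
  rw [finsum_congr h1, finsum_add_distrib (Set.toFinite _) (Set.toFinite _), Adj_cores_op_apply]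
  congr 1
  exact finsum_comp_equiv (MulAction.toPerm (γ⁻¹ : Γ))
    (f := fun x : Γ ⧸ Γ'.subgroupOf Γ => u (((x.out⁻¹ : Γ) : SL(2, ℤ)) * g))

/-! ### the statements -/

theorem IsCuspPot.res (hle : Γ' ≤ Γ) {φ : Additive Γ →+ R} {u : SL(2, ℤ) → R}
    (hu : IsCuspPot Γ φ u) : IsCuspPot Γ' ((resCorr hle).op R φ) u := by
  refine ⟨fun γ g => ?_, hu.right_T, hu.right_neg⟩
  rw [resCorr_op_apply]
  exact hu.left ⟨γ, hle γ.2⟩ g

theorem IsTriPot.res (hle : Γ' ≤ Γ) {φ : Additive Γ →+ R} {u : SL(2, ℤ) → R}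
    (hu : IsTriPot Γ φ u) : IsTriPot Γ' ((resCorr hle).op R φ) u := by
  refine ⟨fun γ g => ?_, hu.right_U, hu.right_neg⟩
  rw [resCorr_op_apply]
  exact hu.left ⟨γ, hle γ.2⟩ g

theorem IsCuspPot.cores [(Γ'.subgroupOf Γ).FiniteIndex] {ψ : Additive Γ' →+ R}
    {u : SL(2, ℤ) → R} (hu : IsCuspPot Γ' ψ u) :
    IsCuspPot Γ ((coresCorr Γ Γ').op R ψ)
      (fun g => ∑ᶠ x : Γ ⧸ Γ'.subgroupOf Γ, u (((x.out⁻¹ : Γ) : SL(2, ℤ)) * g)) := by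
  refine ⟨fun γ g => Adj_left hu.left γ g, fun g => ?_, fun g => ?_⟩
  · refine finsum_congr fun x => ?_
    rw [← mul_assoc, hu.right_T]
  · refine finsum_congr fun x => ?_
    rw [mul_neg, hu.right_neg]

theorem IsTriPot.cores [(Γ'.subgroupOf Γ).FiniteIndex] {ψ : Additive Γ' →+ R}
    {u : SL(2, ℤ) → R} (hu : IsTriPot Γ' ψ u) :
    IsTriPot Γ ((coresCorr Γ Γ').op R ψ)
      (fun g => ∑ᶠ x : Γ ⧸ Γ'.subgroupOf Γ, u (((x.out⁻¹ : Γ) : SL(2, ℤ)) * g)) := by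
  refine ⟨fun γ g => Adj_left hu.left γ g, fun g => ?_, fun g => ?_⟩
  · refine finsum_congr fun x => ?_
    rw [← mul_assoc, hu.right_U]
  · refine finsum_congr fun x => ?_
    rw [mul_neg, hu.right_neg]

theorem killsEllPar_res (hle : Γ' ≤ Γ) {φ : Additive Γ →+ R} (hφ : KillsEllPar Γ φ) :
    KillsEllPar Γ' ((resCorr hle).op R φ) := by
  intro γ hγ
  rw [resCorr_op_apply]
  exact hφ ⟨γ, hle γ.2⟩ hγ

/-- `B'(res φ, ψ') = B(φ, cores ψ')`. -/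
theorem IsPair.cores_right (hle : Γ' ≤ Γ) [Γ'.FiniteIndex] [Γ.FiniteIndex]
    [(Γ'.subgroupOf Γ).FiniteIndex] {φ : Additive Γ →+ R} {ψ' : Additive Γ' →+ R}
    (hφ : KillsEllPar Γ φ) (hψ' : KillsEllPar Γ' ψ') {b : R}
    (h : IsPair Γ' ((resCorr hle).op R φ) ψ' b) :
    IsPair Γ φ ((coresCorr Γ Γ').op R ψ') b := by
  obtain ⟨u, hu⟩ := exists_isCuspPot Γ φ hφ
  obtain ⟨h', hh'⟩ := exists_isTriPot Γ' ψ' hψ'
  have hb : b = pairOf Γ' u h' :=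
    IsPair.unique (killsEllPar_res hle hφ) hψ' h ⟨u, h', hu.res hle, hh', rfl⟩
  refine ⟨u, _, hu, hh'.cores, ?_⟩
  rw [hb]
  unfold pairOf
  rw [sumQ_trans Γ hle (fun g => (u (g * S) - u g) * (h' g - h' (g * S)))]
  · congr 1
    funext g
    rw [← finsum_sub_distrib (Set.toFinite _) (Set.toFinite _), mul_finsum' _ _ (Set.toFinite _)]
    refine finsum_congr fun x => ?_
    rw [mul_assoc, hu.left, hu.left]
    ring
  · intro γ g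
    rw [mul_assoc, (hu.res hle).left, (hu.res hle).left, hh'.left, hh'.left]
    ring

/-- `B'(ψ', res φ) = B(cores ψ', φ)`. -/
theorem IsPair.cores_left (hle : Γ' ≤ Γ) [Γ'.FiniteIndex] [Γ.FiniteIndex]
    [(Γ'.subgroupOf Γ).FiniteIndex] {φ : Additive Γ →+ R} {ψ' : Additive Γ' →+ R}
    (hφ : KillsEllPar Γ φ) (hψ' : KillsEllPar Γ' ψ') {b : R}
    (h : IsPair Γ' ψ' ((resCorr hle).op R φ) b) :
    IsPair Γ ((coresCorr Γ Γ').op R ψ') φ b := by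
  obtain ⟨u', hu'⟩ := exists_isCuspPot Γ' ψ' hψ'
  obtain ⟨h₀, hh₀⟩ := exists_isTriPot Γ φ hφ
  have hb : b = pairOf Γ' u' h₀ :=
    IsPair.unique hψ' (killsEllPar_res hle hφ) h ⟨u', h₀, hu', hh₀.res hle, rfl⟩
  refine ⟨_, h₀, hu'.cores, hh₀, ?_⟩
  rw [hb]
  unfold pairOf
  rw [sumQ_trans Γ hle (fun g => (u' (g * S) - u' g) * (h₀ g - h₀ (g * S)))]
  · congr 1
    funext g
    rw [← finsum_sub_distrib (Set.toFinite _) (Set.toFinite _), finsum_mul' _ _ (Set.toFinite _)]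
    refine finsum_congr fun x => ?_
    rw [mul_assoc, hh₀.left, hh₀.left]
    ring
  · intro γ g
    rw [mul_assoc, (hh₀.res hle).left, (hh₀.res hle).left, hu'.left, hu'.left]
    ring

end Fermat.Agent.S41.P
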