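import Fermat.Agent.S41.P.Fan

/-!
# S41, module P, file Classes: the sum over the cusps is invariant under automorphisms
-/

set_option autoImplicit false

open Matrix.SpecialLinearGroup ModularGroup
open scoped MatrixGroups
open Fermat.Agent.S16.Crossing (Uu)
open Fermat.Agent.Lib.EllPar (KillsEllPar)

namespace Fermat.Agent.S41.P

variable (Γ : Subgroup SL(2, ℤ)) {R : Type*}

theorem Classes_isPrimUnip_iff {Γ : Subgroup SL(2, ℤ)} (c : Γ ≃* Γ)
    (hpos : ∀ γ : Γ, IsPosUnip (γ : SL(2, ℤ)) ↔ IsPosUnip (c γ : SL(2, ℤ))) (π : Γ) :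
    IsPrimUnip Γ π ↔ IsPrimUnip Γ (c π) := by
  constructor
  · rintro ⟨h1, h2⟩
    refine ⟨(hpos π).1 h1, fun π' k hπ' hk => ?_⟩
    refine h2 (c.symm π') k ?_ ?_
    · rw [hpos, MulEquiv.apply_symm_apply]
      exact hπ'
    · rw [← map_pow, ← hk, MulEquiv.symm_apply_apply]
  · rintro ⟨h1, h2⟩
    refine ⟨(hpos π).2 h1, fun π' k hπ' hk => ?_⟩
    exact h2 (c π') k ((hpos π').1 hπ') (by rw [hk, map_pow])

/-- the permutation of the primitive positive unipotent elements. -/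
def Classes_equivPU {Γ : Subgroup SL(2, ℤ)} (c : Γ ≃* Γ)
    (hpos : ∀ γ : Γ, IsPosUnip (γ : SL(2, ℤ)) ↔ IsPosUnip (c γ : SL(2, ℤ))) : PU Γ ≃ PU Γ where
  toFun π := ⟨c π.1, (Classes_isPrimUnip_iff c hpos π.1).1 π.2⟩
  invFun π := ⟨c.symm π.1, (Classes_isPrimUnip_iff c hpos (c.symm π.1)).2 (by
    rw [MulEquiv.apply_symm_apply]; exact π.2)⟩
  left_inv π := Subtype.ext (c.symm_apply_apply π.1)
  right_inv π := Subtype.ext (c.apply_symm_apply π.1)

/-- the permutation of the cusps. -/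
def Classes_equiv {Γ : Subgroup SL(2, ℤ)} (c : Γ ≃* Γ)
    (hpos : ∀ γ : Γ, IsPosUnip (γ : SL(2, ℤ)) ↔ IsPosUnip (c γ : SL(2, ℤ))) :
    PUClasses Γ ≃ PUClasses Γ :=
  Quotient.congr (ra := puSetoid Γ) (rb := puSetoid Γ) (Classes_equivPU c hpos) (by
    intro π π'
    constructor
    · rintro ⟨γ, h⟩
      refine ⟨c γ, ?_⟩
      show c π'.1 = c γ * c π.1 * (c γ)⁻¹
      rw [h, map_mul, map_mul, map_inv]
    · rintro ⟨γ, h⟩
      refine ⟨c.symm γ, c.injective ?_⟩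
      have h' : c π'.1 = γ * c π.1 * γ⁻¹ := h
      rw [h', map_mul, map_mul, map_inv, MulEquiv.apply_symm_apply])

/-- the sum over the cusps is invariant under automorphisms induced by `GL₂⁺(ℝ)`. -/
theorem parSum_conj [AddCommMonoid R] (w : GL (Fin 2) ℝ) (hw : 0 < (w.det : ℝ)) (c : Γ ≃* Γ)
    (hc : ∀ γ : Γ, w * mapGL ℝ (γ : SL(2, ℤ)) = mapGL ℝ (c γ : SL(2, ℤ)) * w) (d : Γ → R)
    (hd : ∀ γ π : Γ, IsPosUnip (π : SL(2, ℤ)) → d (γ * π * γ⁻¹) = d π) :
    parSum Γ (fun γ => d (c γ)) = parSum Γ d := by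
  have hpos : ∀ γ : Γ, IsPosUnip (γ : SL(2, ℤ)) ↔ IsPosUnip (c γ : SL(2, ℤ)) := fun γ =>
    isPosUnip_conj w hw _ _ (hc γ)
  unfold parSum
  rw [← finsum_comp_equiv (Classes_equiv c hpos) (f := fun κ : PUClasses Γ => d (Quotient.out κ).1)]
  refine finsum_congr fun κ => ?_
  have h1 : Classes_equiv c hpos κ =
      Quotient.mk (puSetoid Γ) (Classes_equivPU c hpos (Quotient.out κ)) := by
    conv_lhs => rw [← Quotient.out_eq κ]
    rfl
  have h2 : Quotient.mk (puSetoid Γ) (Classes_equivPU c hpos (Quotient.out κ)) =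
      Quotient.mk (puSetoid Γ) (Quotient.out (Classes_equiv c hpos κ)) := by
    rw [← h1]
    exact (Quotient.out_eq _).symm
  obtain ⟨γ, hγ⟩ := Quotient.exact h2
  show d (c (Quotient.out κ).1) = d (Quotient.out (Classes_equiv c hpos κ)).1
  rw [hγ]
  exact (hd γ _ ((hpos _).1 (Quotient.out κ).2.1)).symm

end Fermat.Agent.S41.P
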