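import Fermat.Agent.S41.P.Heis
import Fermat.Agent.S41.P.Classes

/-!
# S41, module P, file Inv: the pairing is invariant under conjugation by `GL₂⁺(ℝ)` (coefficients `ℚ`)
-/

set_option autoImplicit false

open Matrix.SpecialLinearGroup ModularGroup
open scoped MatrixGroups
open Fermat.Agent.S16.Crossing (Uu)
open Fermat.Agent.Lib.EllPar (KillsEllPar)

namespace Fermat.Agent.S41.P

variable {Γ : Subgroup SL(2, ℤ)}

theorem Inv_heis_one {R : Type*} [CommRing R] {φ ψ : Additive Γ →+ R} {d : Γ → R}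
    (hd : IsHeis Γ φ ψ d) : d 1 = 0 := by
  have h := hd 1 1
  rw [mul_one, ofMul_one, map_zero, map_zero, mul_zero, add_zero] at h
  exact left_eq_add.mp h

theorem Inv_heis_inv {R : Type*} [CommRing R] {φ ψ : Additive Γ →+ R} {d : Γ → R}
    (hd : IsHeis Γ φ ψ d) (γ : Γ) :
    d γ + d γ⁻¹ = φ (Additive.ofMul γ) * ψ (Additive.ofMul γ) := by
  have h := hd γ γ⁻¹
  rw [mul_inv_cancel, Inv_heis_one hd, ofMul_inv, map_neg] at h
  linear_combination -h

/-- a Heisenberg cochain is a class function on the elements killed by `φ` and `ψ`. -/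
theorem IsHeis.conj_eq {R : Type*} [CommRing R] {φ ψ : Additive Γ →+ R} {d : Γ → R}
    (hd : IsHeis Γ φ ψ d) (γ π : Γ) (h1 : φ (Additive.ofMul π) = 0)
    (h2 : ψ (Additive.ofMul π) = 0) : d (γ * π * γ⁻¹) = d π := by
  have h3 := hd (γ * π) γ⁻¹
  have h4 := hd γ π
  have h5 := Inv_heis_inv hd γ
  rw [h3, h4, ofMul_mul, map_add, h1, h2, ofMul_inv, map_neg]
  linear_combination h5

theorem Inv_sumQ_odd [Γ.FiniteIndex] (m : SL(2, ℤ) → ℚ)
    (hm : ∀ (γ : Γ) g, m ((γ : SL(2, ℤ)) * g) = m g) (hS : ∀ g, m (g * S) = - m g) :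
    sumQ Γ m = 0 := by
  have h1 := sumQ_mul_right Γ m hm S
  have h2 := sumQ_add Γ m (fun g => m (g * S))
  have h3 : sumQ Γ (fun g => m g + m (g * S)) = 0 := by
    have : (fun g => m g + m (g * S)) = fun _ => (0 : ℚ) := by
      funext g
      rw [hS, add_neg_cancel]
    rw [this]
    simp [sumQ]
  rw [h3, h1] at h2
  linarith

theorem Inv_triPot_T_pow {R : Type*} [CommRing R] {ψ : Additive Γ →+ R} {h : SL(2, ℤ) → R}
    (hh : IsTriPot Γ ψ h) (g : SL(2, ℤ)) (k : ℕ) :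
    h (g * T ^ k) = h g + ∑ i ∈ Finset.range k,
      (h (g * T ^ (i + 1)) - h (g * T ^ (i + 1) * S)) := by
  induction k with
  | zero => simp
  | succ k ih =>
    rw [Finset.sum_range_succ, ← add_assoc, ← ih]
    have := hh.mul_T (g * T ^ k)
    rw [mul_assoc g, ← pow_succ] at this
    exact this

theorem Inv_S_mul_S (g : SL(2, ℤ)) : g * S * S = -g := by
  have h : S * S = (-1 : SL(2, ℤ)) := by
    ext i j
    fin_cases i <;> fin_cases j <;> simp [S, Matrix.mul_apply, Fin.sum_univ_two]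
  rw [mul_assoc, h, mul_neg, mul_one]

/-- the sum over the cusps of a homomorphism to `ℚ` vanishes. -/
theorem parSum_hom [Γ.FiniteIndex] (hneg : (-1 : SL(2, ℤ)) ∈ Γ) (χ : Additive Γ →+ ℚ) :
    parSum Γ (fun γ => χ (Additive.ofMul γ)) = 0 := by
  have hfin : ∀ γ : Γ, IsOfFinOrder γ → χ (Additive.ofMul γ) = 0 := by
    intro γ hγ
    obtain ⟨n, hn, hγn⟩ := isOfFinOrder_iff_pow_eq_one.mp hγ
    have h1 : χ (Additive.ofMul (γ ^ n)) = 0 := by rw [hγn, ofMul_one, map_zero]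
    rw [ofMul_pow, map_nsmul, nsmul_eq_mul] at h1
    rcases mul_eq_zero.mp h1 with h | h
    · exact absurd (by exact_mod_cast h) hn.ne'
    · exact h
  obtain ⟨h, hh⟩ := exists_isTriPot_of_finOrder Γ χ hfin
  obtain ⟨_, g, k, hgk, hsum⟩ := exists_fan (R := ℚ) Γ hneg
  have hm : ∀ (γ : Γ) x, (fun x => h x - h (x * S)) ((γ : SL(2, ℤ)) * x) =
      (fun x => h x - h (x * S)) x := by
    intro γ x
    show h ((γ : SL(2, ℤ)) * x) - h ((γ : SL(2, ℤ)) * x * S) = h x - h (x * S)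
    rw [mul_assoc, hh.left, hh.left]
    ring
  have h0 : sumQ Γ (fun x => h x - h (x * S)) = 0 := by
    apply Inv_sumQ_odd _ hm
    intro x
    show h (x * S) - h (x * S * S) = -(h x - h (x * S))
    rw [Inv_S_mul_S, hh.right_neg]
    ring
  rw [hsum _ hm] at h0
  rw [← h0]
  unfold parSum
  apply finsum_congr
  intro κ
  have h1 := hh.left (Quotient.out κ).1 (g κ)
  rw [hgk κ, Inv_triPot_T_pow hh] at h1
  linarith

/-- **Intrinsic formula for the pairing.** -/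
theorem parSum_eq_of_isHeis [Γ.FiniteIndex] (hneg : (-1 : SL(2, ℤ)) ∈ Γ)
    {φ ψ : Additive Γ →+ ℚ} (hφ : KillsEllPar Γ φ) (hψ : KillsEllPar Γ ψ) {b : ℚ}
    (hb : IsPair Γ φ ψ b) {d : Γ → ℚ} (hd : IsHeis Γ (2 • φ) ψ d) : parSum Γ d = b := by
  obtain ⟨u, h, hu, hh, rfl⟩ := hb
  obtain ⟨C, d0, hCU, hCS, hC, hd0⟩ := exists_heis hu hh
  obtain ⟨hfinite, g, k, hgk, hsum⟩ := exists_fan (R := ℚ) Γ hneg
  -- the value for `d0`
  have hf : ∀ (γ : Γ) x, (fun g => (u (g * S) - u g) * (h g - h (g * S))) ((γ : SL(2, ℤ)) * x) =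
      (fun g => (u (g * S) - u g) * (h g - h (g * S))) x := by
    intro γ x
    show (u ((γ : SL(2, ℤ)) * x * S) - u ((γ : SL(2, ℤ)) * x)) *
      (h ((γ : SL(2, ℤ)) * x) - h ((γ : SL(2, ℤ)) * x * S)) = (u (x * S) - u x) * (h x - h (x * S))
    rw [mul_assoc, hh.left, hh.left, hu.left, hu.left]
    ring
  have h0 : parSum Γ d0 = pairOf Γ u h := by
    unfold pairOf
    rw [hsum _ hf]
    unfold parSum
    apply finsum_congr
    intro κ
    exact heis_unipotent hφ hψ hu hh hCU hCS hC _ (g κ) (k κ) (hgk κ)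
  -- the difference is a homomorphism
  let χ : Additive Γ →+ ℚ := AddMonoidHom.mk' (fun γ => d (Additive.toMul γ) - d0 (Additive.toMul γ))
    (by
      intro γ γ'
      show d (Additive.toMul γ * Additive.toMul γ') - d0 (Additive.toMul γ * Additive.toMul γ') =
        (d (Additive.toMul γ) - d0 (Additive.toMul γ)) +
          (d (Additive.toMul γ') - d0 (Additive.toMul γ'))
      rw [hd, hd0]
      ring)
  have h1 := parSum_hom hneg χ
  have h2 : parSum Γ d = parSum Γ d0 + parSum Γ (fun γ => χ (Additive.ofMul γ)) := by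
    unfold parSum
    rw [← finsum_add_distrib (Set.toFinite _) (Set.toFinite _)]
    apply finsum_congr
    intro κ
    show d (Quotient.out κ).1 = d0 (Quotient.out κ).1 +
      (d (Quotient.out κ).1 - d0 (Quotient.out κ).1)
    ring
  rw [h2, h1, h0, add_zero]

theorem Inv_trace_conj (g g' : SL(2, ℤ)) (a : GL (Fin 2) ℝ)
    (h : a * mapGL ℝ g = mapGL ℝ g' * a) :
    (g' : Matrix (Fin 2) (Fin 2) ℤ).trace = (g : Matrix (Fin 2) (Fin 2) ℤ).trace := by
  have h' : mapGL ℝ g' = a * mapGL ℝ g * a⁻¹ := by rw [h, mul_inv_cancel_right]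
  have h1 : ((mapGL ℝ g' : GL (Fin 2) ℝ) : Matrix (Fin 2) (Fin 2) ℝ).trace =
      ((mapGL ℝ g : GL (Fin 2) ℝ) : Matrix (Fin 2) (Fin 2) ℝ).trace := by
    rw [h', Units.val_mul, Units.val_mul, Matrix.trace_mul_comm, ← mul_assoc, ← Units.val_mul,
      inv_mul_cancel, Units.val_one, one_mul]
  rw [mapGL_coe_matrix, mapGL_coe_matrix] at h1
  simp only [Matrix.trace_fin_two, Matrix.SpecialLinearGroup.map_apply_coe, RingHom.mapMatrix_apply,
    Matrix.map_apply, algebraMap_int_eq, eq_intCast] at h1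
  rw [Matrix.trace_fin_two, Matrix.trace_fin_two]
  exact_mod_cast h1

theorem Inv_finOrder_conj (g g' : SL(2, ℤ)) (a : GL (Fin 2) ℝ)
    (h : a * mapGL ℝ g = mapGL ℝ g' * a) (hg : IsOfFinOrder g) : IsOfFinOrder g' := by
  have h' : mapGL ℝ g' = a * mapGL ℝ g * a⁻¹ := by rw [h, mul_inv_cancel_right]
  rw [isOfFinOrder_iff_pow_eq_one] at hg ⊢
  obtain ⟨n, hn, hgn⟩ := hg
  refine ⟨n, hn, ?_⟩
  apply mapGL_injective (S := ℝ)
  rw [map_pow, h', conj_pow, ← map_pow, hgn, map_one, mul_one, mul_inv_cancel]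

theorem Inv_kills_conj (w : GL (Fin 2) ℝ) (hw : 0 < (w.det : ℝ)) (c : Γ ≃* Γ)
    (hc : ∀ γ : Γ, w * mapGL ℝ (γ : SL(2, ℤ)) = mapGL ℝ (c γ : SL(2, ℤ)) * w)
    {φ : Additive Γ →+ ℚ} (hφ : KillsEllPar Γ φ) :
    KillsEllPar Γ ((conjCorr w hw c.toMonoidHom hc).op ℚ φ) := by
  intro γ hγ
  rw [conjCorr_op_apply]
  apply hφ
  rcases hγ with h | h
  · left
    exact Inv_finOrder_conj _ _ w (hc γ) h
  · right
    have := Inv_trace_conj _ _ w (hc γ)
    show ((c γ : SL(2, ℤ)) : Matrix (Fin 2) (Fin 2) ℤ).trace ^ 2 = 4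
    rw [this]
    exact h

/-- **Invariance.** -/
theorem IsPair.conj [Γ.FiniteIndex] (hneg : (-1 : SL(2, ℤ)) ∈ Γ) (w : GL (Fin 2) ℝ)
    (hw : 0 < (w.det : ℝ)) (c : Γ ≃* Γ)
    (hc : ∀ γ : Γ, w * mapGL ℝ (γ : SL(2, ℤ)) = mapGL ℝ (c γ : SL(2, ℤ)) * w)
    {φ ψ : Additive Γ →+ ℚ} (hφ : KillsEllPar Γ φ) (hψ : KillsEllPar Γ ψ) {b : ℚ}
    (hb : IsPair Γ φ ψ b) :
    IsPair Γ ((conjCorr w hw c.toMonoidHom hc).op ℚ φ) ((conjCorr w hw c.toMonoidHom hc).op ℚ ψ) b := by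
  have hφ' := Inv_kills_conj w hw c hc hφ
  have hψ' := Inv_kills_conj w hw c hc hψ
  obtain ⟨b', hb'⟩ := exists_isPair hφ' hψ'
  obtain ⟨u, h, hu, hh, hbe⟩ := id hb
  obtain ⟨C, d, -, -, -, hd⟩ := exists_heis hu hh
  have hd' : IsHeis Γ (2 • (conjCorr w hw c.toMonoidHom hc).op ℚ φ)
      ((conjCorr w hw c.toMonoidHom hc).op ℚ ψ) (fun γ => d (c γ)) := by
    intro γ γ'
    show d (c (γ * γ')) = d (c γ) + d (c γ') + _
    rw [map_mul, hd, AddMonoidHom.smul_apply, AddMonoidHom.smul_apply, conjCorr_op_apply,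
      conjCorr_op_apply]
    rfl
  have h1 := parSum_eq_of_isHeis hneg hφ' hψ' hb' hd'
  have h2 := parSum_eq_of_isHeis hneg hφ hψ hb hd
  have h3 := parSum_conj Γ w hw c hc d (by
    intro γ π hπ
    have hπ' : Fermat.Agent.Lib.EllPar.IsEllPar (π : SL(2, ℤ)) := by
      right
      rw [hπ.1]
      norm_num
    apply hd.conj_eq
    · rw [AddMonoidHom.smul_apply, hφ π hπ', smul_zero]
    · exact hψ π hπ')
  have : b' = b := by rw [← h1, ← h2, h3]
  rw [← this]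
  exact hb'

end Fermat.Agent.S41.P
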