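import Fermat.Agent.S41.P.Nondeg
import Fermat.Agent.S41.P.Adj
import Fermat.Agent.S41.P.Inv

/-!
# S41, module P, file Form: the pairing as a bilinear form; invariance with coefficients `ℤ / n`
-/

set_option autoImplicit false

open Matrix.SpecialLinearGroup ModularGroup CongruenceSubgroup
open scoped MatrixGroups
open Fermat.Agent.S16.Crossing (Uu)
open Fermat.Agent.Lib.EllPar (KillsEllPar ellParHoms)

namespace Fermat.Agent.S41.P

theorem exists_form (Γ : Subgroup SL(2, ℤ)) [Γ.FiniteIndex] (k : Type*) [Field k] :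
    ∃ B : ellParHoms Γ k →ₗ[k] ellParHoms Γ k →ₗ[k] k,
      ∀ φ ψ : ellParHoms Γ k, IsPair Γ (φ : Additive Γ →+ k) (ψ : Additive Γ →+ k) (B φ ψ) := by
  classical
  choose b hb using fun (φ ψ : ellParHoms Γ k) => exists_isPair (Γ := Γ) (R := k) φ.2 ψ.2
  refine ⟨LinearMap.mk₂ k b ?_ ?_ ?_ ?_, fun φ ψ => hb φ ψ⟩
  · intro φ φ' ψ
    exact IsPair.unique (φ + φ').2 ψ.2 (hb _ _) (IsPair.add_left ψ.2 φ.2 φ'.2 (hb φ ψ) (hb φ' ψ))
  · intro c φ ψ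
    exact IsPair.unique (c • φ).2 ψ.2 (hb _ _) (IsPair.smul_left c (hb φ ψ))
  · intro φ ψ ψ'
    exact IsPair.unique φ.2 (ψ + ψ').2 (hb _ _) (IsPair.add_right φ.2 ψ.2 ψ'.2 (hb φ ψ) (hb φ ψ'))
  · intro c φ ψ
    exact IsPair.unique φ.2 (c • ψ).2 (hb _ _) (IsPair.smul_right c (hb φ ψ))

/-- the intersection pairing on `Hom(Γ, k)` (homs killing elliptic and parabolic elements). -/
noncomputable def form (Γ : Subgroup SL(2, ℤ)) [Γ.FiniteIndex] (k : Type*) [Field k] :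
    ellParHoms Γ k →ₗ[k] ellParHoms Γ k →ₗ[k] k := (exists_form Γ k).choose

theorem form_isPair (Γ : Subgroup SL(2, ℤ)) [Γ.FiniteIndex] (k : Type*) [Field k]
    (φ ψ : ellParHoms Γ k) :
    IsPair Γ (φ : Additive Γ →+ k) (ψ : Additive Γ →+ k) (form Γ k φ ψ) :=
  (exists_form Γ k).choose_spec φ ψ

theorem form_eq_of_isPair {Γ : Subgroup SL(2, ℤ)} [Γ.FiniteIndex] {k : Type*} [Field k]
    (φ ψ : ellParHoms Γ k) {b : k}
    (h : IsPair Γ (φ : Additive Γ →+ k) (ψ : Additive Γ →+ k) b) : form Γ k φ ψ = b :=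
  IsPair.unique φ.2 ψ.2 (form_isPair Γ k φ ψ) h

theorem form_nondeg {Γ : Subgroup SL(2, ℤ)} [Γ.FiniteIndex] {k : Type*} [Field k]
    (h2 : (2 : k) ≠ 0) (hneg : (-1 : SL(2, ℤ)) ∈ Γ) (φ : ellParHoms Γ k)
    (h : ∀ ψ, form Γ k φ ψ = 0) : φ = 0 := by
  apply Subtype.ext
  apply eq_zero_of_isPair_zero h2 hneg _ φ.2
  intro ψ hψ
  have := form_isPair Γ k φ ⟨ψ, hψ⟩
  rwa [h] at this

theorem Form_trace_mapGL (g : SL(2, ℤ)) :
    ((mapGL ℝ g : GL (Fin 2) ℝ) : Matrix (Fin 2) (Fin 2) ℝ).trace =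
      (((g : Matrix (Fin 2) (Fin 2) ℤ).trace : ℤ) : ℝ) := by
  simp [Matrix.trace_fin_two]

/-- conjugation by a real matrix preserves elliptic and parabolic elements. -/
theorem Form_isEllPar_conj {Γ : Subgroup SL(2, ℤ)} (w : GL (Fin 2) ℝ) (c : Γ →* Γ)
    (hc : ∀ γ : Γ, w * mapGL ℝ (γ : SL(2, ℤ)) = mapGL ℝ (c γ : SL(2, ℤ)) * w) (γ : Γ)
    (h : Fermat.Agent.Lib.EllPar.IsEllPar (γ : SL(2, ℤ))) :
    Fermat.Agent.Lib.EllPar.IsEllPar (c γ : SL(2, ℤ)) := by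
  rcases h with h | h
  · left
    have h1 : IsOfFinOrder γ := (Submonoid.isOfFinOrder_coe (H := Γ.toSubmonoid) (x := γ)).1 h
    exact (Submonoid.isOfFinOrder_coe (H := Γ.toSubmonoid) (x := c γ)).2 (c.isOfFinOrder h1)
  · right
    have h1 : ((mapGL ℝ (c γ : SL(2, ℤ)) : GL (Fin 2) ℝ) : Matrix (Fin 2) (Fin 2) ℝ) =
        (w : Matrix (Fin 2) (Fin 2) ℝ) *
          ((mapGL ℝ (γ : SL(2, ℤ)) : GL (Fin 2) ℝ) : Matrix (Fin 2) (Fin 2) ℝ) *
          ((w⁻¹ : GL (Fin 2) ℝ) : Matrix (Fin 2) (Fin 2) ℝ) := by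
      rw [← Units.val_mul, ← Units.val_mul, hc γ, mul_inv_cancel_right]
    have h2 := congrArg Matrix.trace h1
    rw [Matrix.trace_units_conj, Form_trace_mapGL, Form_trace_mapGL] at h2
    rw [Int.cast_injective h2]
    exact h

theorem Form_killsEllPar_conj {Γ : Subgroup SL(2, ℤ)} (w : GL (Fin 2) ℝ) (hw : 0 < (w.det : ℝ))
    (c : Γ →* Γ) (hc : ∀ γ : Γ, w * mapGL ℝ (γ : SL(2, ℤ)) = mapGL ℝ (c γ : SL(2, ℤ)) * w)
    {B : Type*} [AddCommGroup B] {φ : Additive Γ →+ B} (hφ : KillsEllPar Γ φ) :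
    KillsEllPar Γ ((conjCorr w hw c hc).op B φ) := by
  intro γ hγ
  rw [conjCorr_op_apply]
  exact hφ _ (Form_isEllPar_conj w c hc γ hγ)

theorem Form_killsEllPar_comp {Γ : Subgroup SL(2, ℤ)} {B B' : Type*} [AddCommGroup B]
    [AddCommGroup B'] (e : B →+ B') {φ : Additive Γ →+ B} (hφ : KillsEllPar Γ φ) :
    KillsEllPar Γ (e.comp φ) := by
  intro γ hγ
  rw [AddMonoidHom.comp_apply, hφ γ hγ, map_zero]

/-- invariance with coefficients `ℤ / n`: lift to `ℤ` (`Lib.EllPar.exists_lift_int`), compare in `ℚ`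
(`IsPair.conj`, `IsPair.map`, `IsPair.unique`), reduce. -/
theorem IsPair.conj_zmod (M : ℕ) [NeZero M] (n : ℕ) (w : GL (Fin 2) ℝ)
    (hw : 0 < (w.det : ℝ)) (c : Gamma0 M ≃* Gamma0 M)
    (hc : ∀ γ : Gamma0 M, w * mapGL ℝ (γ : SL(2, ℤ)) = mapGL ℝ (c γ : SL(2, ℤ)) * w)
    {φ ψ : Additive (Gamma0 M) →+ ZMod n} (hφ : KillsEllPar (Gamma0 M) φ)
    (hψ : KillsEllPar (Gamma0 M) ψ) {b : ZMod n} (hb : IsPair (Gamma0 M) φ ψ b) :
    IsPair (Gamma0 M) ((conjCorr w hw c.toMonoidHom hc).op (ZMod n) φ)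
      ((conjCorr w hw c.toMonoidHom hc).op (ZMod n) ψ) b := by
  have hneg : (-1 : SL(2, ℤ)) ∈ Gamma0 M := by simp [Gamma0_mem]
  obtain ⟨Φ, hΦ, hΦφ⟩ := Fermat.Agent.Lib.EllPar.exists_lift_int M n φ hφ
  obtain ⟨Ψ, hΨ, hΨψ⟩ := Fermat.Agent.Lib.EllPar.exists_lift_int M n ψ hψ
  have eφ : (Int.castRingHom (ZMod n)).toAddMonoidHom.comp Φ = φ := AddMonoidHom.ext hΦφ
  have eψ : (Int.castRingHom (ZMod n)).toAddMonoidHom.comp Ψ = ψ := AddMonoidHom.ext hΨψ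
  obtain ⟨bZ, hbZ⟩ := exists_isPair hΦ hΨ
  have hΦc := Form_killsEllPar_conj w hw c.toMonoidHom hc hΦ
  have hΨc := Form_killsEllPar_conj w hw c.toMonoidHom hc hΨ
  obtain ⟨bZ', hbZ'⟩ := exists_isPair hΦc hΨc
  -- comparison over `ℚ`
  have h1 := IsPair.conj hneg w hw c hc
    (Form_killsEllPar_comp (Int.castRingHom ℚ).toAddMonoidHom hΦ)
    (Form_killsEllPar_comp (Int.castRingHom ℚ).toAddMonoidHom hΨ) (hbZ.map (Int.castRingHom ℚ))
  have h2 := hbZ'.map (Int.castRingHom ℚ)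
  rw [← Corr.op_comp, ← Corr.op_comp] at h2
  have h3 : (Int.castRingHom ℚ) bZ' = (Int.castRingHom ℚ) bZ :=
    IsPair.unique
      (Form_killsEllPar_conj w hw c.toMonoidHom hc
        (Form_killsEllPar_comp (Int.castRingHom ℚ).toAddMonoidHom hΦ))
      (Form_killsEllPar_conj w hw c.toMonoidHom hc
        (Form_killsEllPar_comp (Int.castRingHom ℚ).toAddMonoidHom hΨ)) h2 h1
  have h4 : bZ' = bZ := (Int.castRingHom ℚ).injective_int h3
  -- reduction modulo `n`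
  have h5 := hbZ.map (Int.castRingHom (ZMod n))
  rw [eφ, eψ] at h5
  have h6 : b = (Int.castRingHom (ZMod n)) bZ := IsPair.unique hφ hψ hb h5
  have h7 := hbZ'.map (Int.castRingHom (ZMod n))
  rw [← Corr.op_comp, ← Corr.op_comp, eφ, eψ, h4, ← h6] at h7
  exact h7

end Fermat.Agent.S41.P
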