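import Fermat.Agent.S41.Corr
import Fermat.Agent.S16.CrossingSL
import Fermat.Agent.Lib.EllPar

/-!
# S41, module P: potentials and the intersection pairing (definitions)

`G = SL₂(ℤ)`, `S`, `T`, `U = Uu = S T⁻¹` (`U³ = 1`, `T = U⁻¹ S`).  Oriented Farey edges `= G/±1`
(`g ↦ (g∞, g0)`), `g S` = reversed edge, `g T` = next edge at the cusp `g∞`, `g U` = next edge of the
triangle of `g`.
-/

set_option autoImplicit false

open Matrix.SpecialLinearGroup ModularGroup
open scoped MatrixGroups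
open Fermat.Agent.S16.Crossing (Uu)
open Fermat.Agent.Lib.EllPar (KillsEllPar)

namespace Fermat.Agent.S41.P

variable (Γ : Subgroup SL(2, ℤ)) {R : Type*}

/-- `u` is a cusp potential of `φ`: think `u g = ũ (g ∞)`, `ũ (γ s) = ũ s + φ γ`. -/
structure IsCuspPot [AddCommGroup R] (φ : Additive Γ →+ R) (u : SL(2, ℤ) → R) : Prop where
  left : ∀ (γ : Γ) (g : SL(2, ℤ)), u ((γ : SL(2, ℤ)) * g) = u g + φ (Additive.ofMul γ)
  right_T : ∀ g, u (g * T) = u g
  right_neg : ∀ g, u (-g) = u g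

/-- `h` is a triangle potential of `ψ`. -/
structure IsTriPot [AddCommGroup R] (ψ : Additive Γ →+ R) (h : SL(2, ℤ) → R) : Prop where
  left : ∀ (γ : Γ) (g : SL(2, ℤ)), h ((γ : SL(2, ℤ)) * g) = h g + ψ (Additive.ofMul γ)
  right_U : ∀ g, h (g * Uu) = h g
  right_neg : ∀ g, h (-g) = h g

/-- sum over `Γ \ G` of a left `Γ`-invariant function. -/
noncomputable def sumQ [AddCommMonoid R] (f : SL(2, ℤ) → R) : R :=
  ∑ᶠ x : SL(2, ℤ) ⧸ Γ, f (x.out)⁻¹

/-- the pairing computed with given potentials. -/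
noncomputable def pairOf [CommRing R] (u h : SL(2, ℤ) → R) : R :=
  sumQ Γ (fun g => (u (g * S) - u g) * (h g - h (g * S)))

/-- `b` is the value of the pairing at `(φ, ψ)`. -/
def IsPair [CommRing R] (φ ψ : Additive Γ →+ R) (b : R) : Prop :=
  ∃ u h, IsCuspPot Γ φ u ∧ IsTriPot Γ ψ h ∧ pairOf Γ u h = b

/-- a Heisenberg cochain for `(φ, ψ)`. -/
def IsHeis [CommRing R] (φ ψ : Additive Γ →+ R) (d : Γ → R) : Prop :=
  ∀ γ γ' : Γ, d (γ * γ') = d γ + d γ' + φ (Additive.ofMul γ) * ψ (Additive.ofMul γ')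

/-- positive unipotent elements (conjugates of `T ^ k`, `k > 0`, in `SL₂(ℝ)`). -/
def IsPosUnip (π : SL(2, ℤ)) : Prop :=
  (π : Matrix (Fin 2) (Fin 2) ℤ).trace = 2 ∧ 0 < π 0 1 - π 1 0

/-- primitive positive unipotent elements of `Γ`. -/
def IsPrimUnip (π : Γ) : Prop :=
  IsPosUnip (π : SL(2, ℤ)) ∧
    ∀ (π' : Γ) (k : ℕ), IsPosUnip (π' : SL(2, ℤ)) → π = π' ^ k → k = 1

/-- the `Γ`-set (conjugation) of primitive positive unipotent elements. -/
def PU : Type := {π : Γ // IsPrimUnip Γ π}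

/-- conjugacy in `Γ`. -/
def puSetoid : Setoid (PU Γ) where
  r π π' := ∃ γ : Γ, π'.1 = γ * π.1 * γ⁻¹
  iseqv :=
    { refl := fun π => ⟨1, by simp⟩
      symm := by
        rintro π π' ⟨γ, h⟩
        exact ⟨γ⁻¹, by rw [h]; group⟩
      trans := by
        rintro π π' π'' ⟨γ, h⟩ ⟨γ', h'⟩
        exact ⟨γ' * γ, by rw [h', h]; group⟩ }

/-- the set of cusps of `Γ`, intrinsically. -/
def PUClasses : Type := Quotient (puSetoid Γ)

/-- sum over the cusps of the values of `d` at the primitive positive generators. -/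
noncomputable def parSum [AddCommMonoid R] (d : Γ → R) : R :=
  ∑ᶠ κ : PUClasses Γ, d (Quotient.out κ).1

end Fermat.Agent.S41.P
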