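import Fermat.Agent.S41.P.Defs
import Fermat.Agent.GR.A.SL2Fix1

/-!
# S41, module P, file Ell: elements of finite order of `SL₂(ℤ)` stabilise an edge or a triangle
-/

set_option autoImplicit false

open Matrix.SpecialLinearGroup ModularGroup
open scoped MatrixGroups
open Fermat.Agent.S16.Crossing (Uu)

namespace Fermat.Agent.S41.P

/-- the conclusion. -/
def Ell_P (γ : SL(2, ℤ)) : Prop :=
  ∃ (g : SL(2, ℤ)) (k : ℕ), γ * g = g * S ^ k ∨ γ * g = g * Uu ^ k ∨ γ * g = -(g * Uu ^ k)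

theorem Ell_P_conj (γ h : SL(2, ℤ)) (hP : Ell_P (h⁻¹ * γ * h)) : Ell_P γ := by
  obtain ⟨g, k, hg⟩ := hP
  refine ⟨h * g, k, ?_⟩
  have e : γ * (h * g) = h * (h⁻¹ * γ * h * g) := by group
  rcases hg with hg | hg | hg
  · left; rw [e, hg, mul_assoc]
  · right; left; rw [e, hg, mul_assoc]
  · right; right; rw [e, hg, mul_neg, mul_assoc]

theorem Ell_mk (a b c d : ℤ) (γ : SL(2, ℤ)) (h00 : γ 0 0 = a) (h01 : γ 0 1 = b) (h10 : γ 1 0 = c)
    (h11 : γ 1 1 = d) (δ : SL(2, ℤ)) (e00 : δ 0 0 = a) (e01 : δ 0 1 = b) (e10 : δ 1 0 = c)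
    (e11 : δ 1 1 = d) : γ = δ := by
  ext i j
  fin_cases i <;> fin_cases j
  · exact h00.trans e00.symm
  · exact h01.trans e01.symm
  · exact h10.trans e10.symm
  · exact h11.trans e11.symm

theorem Ell_Uu_coe : (Uu : Matrix (Fin 2) (Fin 2) ℤ) = !![0, -1; 1, -1] := by
  have hT : (T⁻¹ : SL(2, ℤ)) = T ^ (-1 : ℤ) := by simp
  unfold Uu
  rw [hT, Matrix.SpecialLinearGroup.coe_mul, coe_T_zpow, coe_S]
  ext i j
  fin_cases i <;> fin_cases j <;> simp [Matrix.mul_apply, Fin.sum_univ_two]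

theorem Ell_mul_apply (g g' : SL(2, ℤ)) (i j : Fin 2) :
    (g * g') i j = g i 0 * g' 0 j + g i 1 * g' 1 j := by
  rw [Matrix.SpecialLinearGroup.coe_mul, Matrix.mul_apply, Fin.sum_univ_two]

theorem Ell_S_apply : S 0 0 = 0 ∧ S 0 1 = -1 ∧ S 1 0 = 1 ∧ S 1 1 = 0 := by
  rw [coe_S]; simp

theorem Ell_Uu_apply : Uu 0 0 = 0 ∧ Uu 0 1 = -1 ∧ Uu 1 0 = 1 ∧ Uu 1 1 = -1 := by
  rw [Ell_Uu_coe]; simp

theorem Ell_neg_apply (g : SL(2, ℤ)) (i j : Fin 2) : (-g) i j = - g i j := by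
  simp

/-- the case `|c| = 1`. -/
theorem Ell_base (γ : SL(2, ℤ)) (hc : γ 1 0 = 1 ∨ γ 1 0 = -1)
    (ht : -1 ≤ γ 0 0 + γ 1 1 ∧ γ 0 0 + γ 1 1 ≤ 1)
    (had : -1 ≤ γ 0 0 - γ 1 1 ∧ γ 0 0 - γ 1 1 ≤ 1) : Ell_P γ := by
  have hdet : γ 0 0 * γ 1 1 - γ 0 1 * γ 1 0 = 1 := by
    have := γ.det_coe
    rwa [Matrix.det_fin_two] at this
  obtain ⟨s00, s01, s10, s11⟩ := Ell_S_apply
  obtain ⟨u00, u01, u10, u11⟩ := Ell_Uu_apply
  obtain ⟨a, ha⟩ : ∃ a, γ 0 0 = a := ⟨_, rfl⟩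
  obtain ⟨b, hb⟩ : ∃ b, γ 0 1 = b := ⟨_, rfl⟩
  obtain ⟨c, hc'⟩ : ∃ c, γ 1 0 = c := ⟨_, rfl⟩
  obtain ⟨d, hd⟩ : ∃ d, γ 1 1 = d := ⟨_, rfl⟩
  rw [ha, hb, hc', hd] at hdet
  rw [ha, hd] at ht had
  rw [hc'] at hc
  have hcases : (a = 0 ∧ d = 0) ∨ (a = 1 ∧ d = 0) ∨ (a = 0 ∧ d = 1) ∨ (a = -1 ∧ d = 0) ∨
      (a = 0 ∧ d = -1) := by omega
  have key : ∀ (g X : SL(2, ℤ)), (∀ i j, (γ * g) i j = (g * X) i j) → γ * g = g * X := by
    intro g X h
    ext i j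
    exact h i j
  have key' : ∀ (g X : SL(2, ℤ)), (∀ i j, (γ * g) i j = - (g * X) i j) → γ * g = -(g * X) := by
    intro g X h
    ext i j
    rw [Ell_neg_apply]
    exact h i j
  rcases hcases with ⟨rfl, rfl⟩ | ⟨rfl, rfl⟩ | ⟨rfl, rfl⟩ | ⟨rfl, rfl⟩ | ⟨rfl, rfl⟩ <;>
    rcases hc with rfl | rfl
  · -- S
    have hb' : b = -1 := by linarith
    subst hb'
    refine ⟨1, 1, Or.inl (key _ _ ?_)⟩
    intro i j
    fin_cases i <;> fin_cases j <;> simp [ha, hb, hc', hd, s00, s01, s10, s11]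
  · -- -S = S^3
    have hb' : b = 1 := by linarith
    subst hb'
    refine ⟨1, 3, Or.inl (key _ _ ?_)⟩
    intro i j
    fin_cases i <;> fin_cases j <;>
      simp [ha, hb, hc', hd, s00, s01, s10, s11, pow_succ, Ell_mul_apply]
  · -- (1,-1;1,0) = -U^2
    have hb' : b = -1 := by linarith
    subst hb'
    refine ⟨1, 2, Or.inr (Or.inr (key' _ _ ?_))⟩
    intro i j
    fin_cases i <;> fin_cases j <;>
      simp [ha, hb, hc', hd, u00, u01, u10, u11, pow_succ, Ell_mul_apply]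
  · -- (1,1;-1,0) = - S U S⁻¹
    have hb' : b = 1 := by linarith
    subst hb'
    refine ⟨S, 1, Or.inr (Or.inr (key' _ _ ?_))⟩
    intro i j
    fin_cases i <;> fin_cases j <;>
      simp [ha, hb, hc', hd, u00, u01, u10, u11, s00, s01, s10, s11, pow_succ, Ell_mul_apply]
  · -- (0,-1;1,1) = - S U² S⁻¹
    have hb' : b = -1 := by linarith
    subst hb'
    refine ⟨S, 2, Or.inr (Or.inr (key' _ _ ?_))⟩
    intro i j
    fin_cases i <;> fin_cases j <;>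
      simp [ha, hb, hc', hd, u00, u01, u10, u11, s00, s01, s10, s11, pow_succ, Ell_mul_apply]
  · -- (0,1;-1,1) = -U
    have hb' : b = 1 := by linarith
    subst hb'
    refine ⟨1, 1, Or.inr (Or.inr (key' _ _ ?_))⟩
    intro i j
    fin_cases i <;> fin_cases j <;>
      simp [ha, hb, hc', hd, u00, u01, u10, u11, pow_succ, Ell_mul_apply]
  · -- (-1,-1;1,0) = S U S⁻¹
    have hb' : b = -1 := by linarith
    subst hb'
    refine ⟨S, 1, Or.inr (Or.inl (key _ _ ?_))⟩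
    intro i j
    fin_cases i <;> fin_cases j <;>
      simp [ha, hb, hc', hd, u00, u01, u10, u11, s00, s01, s10, s11, pow_succ, Ell_mul_apply]
  · -- (-1,1;-1,0) = U²
    have hb' : b = 1 := by linarith
    subst hb'
    refine ⟨1, 2, Or.inr (Or.inl (key _ _ ?_))⟩
    intro i j
    fin_cases i <;> fin_cases j <;>
      simp [ha, hb, hc', hd, u00, u01, u10, u11, pow_succ, Ell_mul_apply]
  · -- (0,-1;1,-1) = U
    have hb' : b = -1 := by linarith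
    subst hb'
    refine ⟨1, 1, Or.inr (Or.inl (key _ _ ?_))⟩
    intro i j
    fin_cases i <;> fin_cases j <;>
      simp [ha, hb, hc', hd, u00, u01, u10, u11, pow_succ, Ell_mul_apply]
  · -- (0,1;-1,-1) = S U² S⁻¹
    have hb' : b = 1 := by linarith
    subst hb'
    refine ⟨S, 2, Or.inr (Or.inl (key _ _ ?_))⟩
    intro i j
    fin_cases i <;> fin_cases j <;>
      simp [ha, hb, hc', hd, u00, u01, u10, u11, s00, s01, s10, s11, pow_succ, Ell_mul_apply]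

theorem Ell_T_apply (k : ℤ) :
    (T ^ k) 0 0 = 1 ∧ (T ^ k) 0 1 = k ∧ (T ^ k) 1 0 = 0 ∧ (T ^ k) 1 1 = 1 := by
  rw [coe_T_zpow]; simp

theorem Ell_conjT (γ : SL(2, ℤ)) (k : ℤ) :
    ((T ^ k)⁻¹ * γ * T ^ k) 0 0 = γ 0 0 - k * γ 1 0 ∧ ((T ^ k)⁻¹ * γ * T ^ k) 1 0 = γ 1 0 ∧
      ((T ^ k)⁻¹ * γ * T ^ k) 1 1 = γ 1 1 + k * γ 1 0 := by
  obtain ⟨t00, t01, t10, t11⟩ := Ell_T_apply k
  obtain ⟨r00, r01, r10, r11⟩ := Ell_T_apply (-k)
  rw [← zpow_neg]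
  refine ⟨?_, ?_, ?_⟩
  · rw [Ell_mul_apply, Ell_mul_apply, Ell_mul_apply, t00, t10, r00, r01]; ring
  · rw [Ell_mul_apply, Ell_mul_apply, Ell_mul_apply, t00, t10, r10, r11]; ring
  · rw [Ell_mul_apply, Ell_mul_apply, Ell_mul_apply, t01, t11, r10, r11]; ring

theorem Ell_conjS (γ : SL(2, ℤ)) :
    (S⁻¹ * γ * S) 0 0 = γ 1 1 ∧ (S⁻¹ * γ * S) 1 0 = - γ 0 1 ∧ (S⁻¹ * γ * S) 1 1 = γ 0 0 := by
  obtain ⟨s00, s01, s10, s11⟩ := Ell_S_apply
  have hS : (S⁻¹ : SL(2, ℤ)) = -S := by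
    rw [inv_eq_iff_mul_eq_one]
    ext i j
    fin_cases i <;> fin_cases j <;> simp [Ell_mul_apply, s00, s01, s10, s11]
  rw [hS]
  refine ⟨?_, ?_, ?_⟩
  · simp only [Ell_mul_apply, Ell_neg_apply, s00, s01, s10, s11]; ring
  · simp only [Ell_mul_apply, Ell_neg_apply, s00, s01, s10, s11]; ring
  · simp only [Ell_mul_apply, Ell_neg_apply, s00, s01, s10, s11]; ring

/-- centering: there is `k` with `|x - 2 k c| ≤ |c|`. -/
theorem Ell_center (x c : ℤ) (hc : c ≠ 0) : ∃ k : ℤ, |x - 2 * k * c| ≤ |c| := by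
  have hpos : 0 < 2 * |c| := by positivity
  have h1 := Int.emod_nonneg (x + |c|) hpos.ne'
  have h2 := Int.emod_lt_of_pos (x + |c|) hpos
  have h3 := Int.emod_add_mul_ediv (x + |c|) (2 * |c|)
  set Q := (x + |c|) / (2 * |c|)
  set r := (x + |c|) % (2 * |c|)
  rcases abs_cases c with ⟨hc1, _⟩ | ⟨hc1, _⟩
  · refine ⟨Q, ?_⟩
    rw [hc1] at h2 h3 ⊢
    rw [abs_le]
    constructor <;> nlinarith
  · refine ⟨-Q, ?_⟩
    rw [hc1] at h2 h3 ⊢
    rw [abs_le]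
    constructor <;> nlinarith

theorem Ell_descent : ∀ (n : ℕ) (γ : SL(2, ℤ)), (γ 1 0).natAbs ≤ n →
    (-1 ≤ γ 0 0 + γ 1 1 ∧ γ 0 0 + γ 1 1 ≤ 1) → Ell_P γ := by
  intro n
  induction n with
  | zero =>
    intro γ hn ht
    exfalso
    have hc : γ 1 0 = 0 := by omega
    have hdet : γ 0 0 * γ 1 1 - γ 0 1 * γ 1 0 = 1 := by
      have := γ.det_coe
      rwa [Matrix.det_fin_two] at this
    rw [hc, mul_zero, sub_zero] at hdet
    rcases Int.eq_one_or_neg_one_of_mul_eq_one' hdet with ⟨h1, h2⟩ | ⟨h1, h2⟩ <;> omega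
  | succ n ih =>
    intro γ hn ht
    by_cases hc0 : γ 1 0 = 0
    · exact ih γ (by omega) ht
    obtain ⟨k, hk⟩ := Ell_center (γ 0 0 - γ 1 1) (γ 1 0) hc0
    obtain ⟨c00, c10, c11⟩ := Ell_conjT γ k
    apply Ell_P_conj γ (T ^ k)
    set γ' := (T ^ k)⁻¹ * γ * T ^ k with hγ'
    have ht' : -1 ≤ γ' 0 0 + γ' 1 1 ∧ γ' 0 0 + γ' 1 1 ≤ 1 := by
      rw [c00, c11]; constructor <;> linarith [ht.1, ht.2]
    have had : |γ' 0 0 - γ' 1 1| ≤ |γ' 1 0| := by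
      rw [c00, c11, c10]
      have : γ 0 0 - k * γ 1 0 - (γ 1 1 + k * γ 1 0) = γ 0 0 - γ 1 1 - 2 * k * γ 1 0 := by ring
      rw [this]; exact hk
    have hn' : (γ' 1 0).natAbs ≤ n + 1 := by rw [c10]; exact hn
    have hc0' : γ' 1 0 ≠ 0 := by rw [c10]; exact hc0
    have hdet : γ' 0 0 * γ' 1 1 - γ' 0 1 * γ' 1 0 = 1 := by
      have := γ'.det_coe
      rwa [Matrix.det_fin_two] at this
    by_cases hc1 : |γ' 1 0| = 1
    · apply Ell_base γ' _ ht'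
      · rw [hc1] at had
        exact abs_le.mp had
      · rcases abs_cases (γ' 1 0) with ⟨h, _⟩ | ⟨h, _⟩
        · left; omega
        · right; omega
    · obtain ⟨e00, e10, e11⟩ := Ell_conjS γ'
      apply Ell_P_conj γ' S
      apply ih
      · rw [e10, Int.natAbs_neg]
        -- |b| < |c|
        have hc2 : 2 ≤ |γ' 1 0| := by
          have : 0 < |γ' 1 0| := abs_pos.mpr hc0'
          omega
        have h4 : 4 * (-(γ' 0 1 * γ' 1 0)) =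
            4 - (γ' 0 0 + γ' 1 1) ^ 2 + (γ' 0 0 - γ' 1 1) ^ 2 := by linarith [hdet]
        have h5 : (γ' 0 0 - γ' 1 1) ^ 2 ≤ (γ' 1 0) ^ 2 := by
          rw [← sq_abs (γ' 0 0 - γ' 1 1), ← sq_abs (γ' 1 0)]
          exact pow_le_pow_left₀ (abs_nonneg _) had 2
        have h6 : 4 * (|γ' 0 1| * |γ' 1 0|) ≤ 4 + |γ' 1 0| ^ 2 := by
          rw [← abs_mul, sq_abs]
          have h7 : |γ' 0 1 * γ' 1 0| = -(γ' 0 1 * γ' 1 0) := by
            apply abs_of_nonpos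
            nlinarith [sq_nonneg (γ' 0 0 - γ' 1 1), ht'.1, ht'.2]
          rw [h7]
          nlinarith [sq_nonneg (γ' 0 0 + γ' 1 1)]
        have h8 : |γ' 0 1| < |γ' 1 0| := by
          by_contra hcon
          push Not at hcon
          nlinarith [abs_nonneg (γ' 0 1)]
        have h9 : (γ' 0 1).natAbs < (γ' 1 0).natAbs := by
          have e1 := Int.natCast_natAbs (γ' 0 1)
          have e2 := Int.natCast_natAbs (γ' 1 0)
          omega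
        omega
      · rw [e00, e11]
        constructor <;> linarith [ht'.1, ht'.2]

/-- classification of the elements of finite order up to conjugacy. -/
theorem exists_conj_of_finOrder (γ : SL(2, ℤ)) (hγ : IsOfFinOrder γ) :
    ∃ (g : SL(2, ℤ)) (k : ℕ), γ * g = g * S ^ k ∨ γ * g = g * Uu ^ k ∨ γ * g = -(g * Uu ^ k) := by
  by_cases h1 : γ = 1
  · exact ⟨1, 0, Or.inl (by rw [h1]; simp)⟩
  by_cases h2 : γ = -1
  · refine ⟨1, 2, Or.inl ?_⟩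
    obtain ⟨s00, s01, s10, s11⟩ := Ell_S_apply
    rw [h2]
    ext i j
    fin_cases i <;> fin_cases j <;> simp [pow_succ, Ell_mul_apply, s00, s01, s10, s11]
  have ht := Fermat.Agent.GR.A.SL2Fix1_abs_trace_lt γ hγ h1 h2
  rw [Matrix.trace_fin_two, abs_lt] at ht
  exact Ell_descent _ γ le_rfl ⟨by omega, by omega⟩

end Fermat.Agent.S41.P
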