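import Fermat.Agent.S41.P.Defs

/-!
# S41, module P, file SumQ: API of `sumQ`
-/

set_option autoImplicit false

open Matrix.SpecialLinearGroup ModularGroup
open scoped MatrixGroups
open Fermat.Agent.S16.Crossing (Uu)
open Fermat.Agent.Lib.EllPar (KillsEllPar)

namespace Fermat.Agent.S41.P

variable (Γ : Subgroup SL(2, ℤ)) {R : Type*}

/-- `sumQ` does not depend on the representatives. -/
theorem sumQ_eq_of_reps [AddCommMonoid R] [Γ.FiniteIndex] (f : SL(2, ℤ) → R)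
    (hf : ∀ (γ : Γ) g, f ((γ : SL(2, ℤ)) * g) = f g) (r : SL(2, ℤ) ⧸ Γ → SL(2, ℤ))
    (hr : ∀ x, ((r x : SL(2, ℤ)) : SL(2, ℤ) ⧸ Γ) = x) :
    sumQ Γ f = ∑ᶠ x : SL(2, ℤ) ⧸ Γ, f (r x)⁻¹ := by
  unfold sumQ
  refine finsum_congr fun x => ?_
  have h1 : ((r x : SL(2, ℤ)) : SL(2, ℤ) ⧸ Γ) = ((x.out : SL(2, ℤ)) : SL(2, ℤ) ⧸ Γ) := by
    rw [hr x, QuotientGroup.out_eq']
  rw [QuotientGroup.eq] at h1
  have h2 := hf ⟨_, h1⟩ (x.out)⁻¹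
  rw [← h2]
  congr 1
  simp

/-- invariance under right translation. -/
theorem sumQ_mul_right [AddCommMonoid R] [Γ.FiniteIndex] (f : SL(2, ℤ) → R)
    (hf : ∀ (γ : Γ) g, f ((γ : SL(2, ℤ)) * g) = f g) (a : SL(2, ℤ)) :
    sumQ Γ (fun g => f (g * a)) = sumQ Γ f := by
  rw [sumQ_eq_of_reps Γ f hf (fun y => a⁻¹ * (a • y).out) (fun y => by
    have h1 : ((a⁻¹ * (a • y).out : SL(2, ℤ)) : SL(2, ℤ) ⧸ Γ) =
        a⁻¹ • (((a • y).out : SL(2, ℤ)) : SL(2, ℤ) ⧸ Γ) := rfl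
    rw [h1, QuotientGroup.out_eq', inv_smul_smul])]
  unfold sumQ
  rw [← finsum_comp_equiv (MulAction.toPerm a : Equiv.Perm (SL(2, ℤ) ⧸ Γ))]
  refine finsum_congr fun x => ?_
  rw [MulAction.toPerm_apply, mul_inv_rev, inv_inv]

theorem sumQ_add [AddCommMonoid R] [Γ.FiniteIndex] (f f' : SL(2, ℤ) → R) :
    sumQ Γ (fun g => f g + f' g) = sumQ Γ f + sumQ Γ f' := by
  unfold sumQ
  exact finsum_add_distrib (Set.toFinite _) (Set.toFinite _)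

theorem sumQ_sub [AddCommGroup R] [Γ.FiniteIndex] (f f' : SL(2, ℤ) → R) :
    sumQ Γ (fun g => f g - f' g) = sumQ Γ f - sumQ Γ f' := by
  unfold sumQ
  exact finsum_sub_distrib (Set.toFinite _) (Set.toFinite _)

theorem sumQ_map [AddCommMonoid R] {R' : Type*} [AddCommMonoid R'] [Γ.FiniteIndex]
    (e : R →+ R') (f : SL(2, ℤ) → R) : sumQ Γ (fun g => e (f g)) = e (sumQ Γ f) := by
  unfold sumQ
  exact (e.map_finsum (Set.toFinite _)).symm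

theorem SumQ_equiv_symm_apply {Γ' : Subgroup SL(2, ℤ)} (hle : Γ' ≤ Γ) (y : SL(2, ℤ) ⧸ Γ) (b : Γ) :
    (Subgroup.quotientEquivProdOfLE hle).symm (y, (b : Γ ⧸ Γ'.subgroupOf Γ)) =
      ((y.out * (b : SL(2, ℤ)) : SL(2, ℤ)) : SL(2, ℤ) ⧸ Γ') := rfl

/-- transitivity: `Γ' ≤ Γ`, representatives `(x.out)⁻¹` of `Γ' \ Γ`. -/
theorem sumQ_trans [AddCommMonoid R] {Γ' : Subgroup SL(2, ℤ)} (hle : Γ' ≤ Γ) [Γ'.FiniteIndex]
    [Γ.FiniteIndex] (f : SL(2, ℤ) → R) (hf : ∀ (γ : Γ') g, f ((γ : SL(2, ℤ)) * g) = f g) :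
    sumQ Γ' f =
      sumQ Γ (fun g => ∑ᶠ x : Γ ⧸ Γ'.subgroupOf Γ, f (((x.out⁻¹ : Γ) : SL(2, ℤ)) * g)) := by
  set e := Subgroup.quotientEquivProdOfLE hle with he
  rw [sumQ_eq_of_reps Γ' f hf (fun z => (e z).1.out * (((e z).2.out : Γ) : SL(2, ℤ))) (fun z => by
    rw [← SumQ_equiv_symm_apply Γ hle, QuotientGroup.out_eq', Prod.mk.eta, ← he,
      Equiv.symm_apply_apply])]
  rw [finsum_comp_equiv e (f := fun yx : (SL(2, ℤ) ⧸ Γ) × (Γ ⧸ Γ'.subgroupOf Γ) =>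
    f (yx.1.out * ((yx.2.out : Γ) : SL(2, ℤ)))⁻¹), finsum_curry _ (Set.toFinite _)]
  unfold sumQ
  refine finsum_congr fun y => finsum_congr fun x => ?_
  rw [mul_inv_rev, Subgroup.coe_inv]

end Fermat.Agent.S41.P
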