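import Fermat.Agent.S41.P.PosUnip
import Fermat.Agent.S41.P.SumQ

/-!
# S41, module P, file Fan: conjugacy classes of primitive positive unipotent elements versus `T`-cycles on `Γ \ G`
-/

set_option autoImplicit false

open Matrix.SpecialLinearGroup ModularGroup
open scoped MatrixGroups
open Fermat.Agent.S16.Crossing (Uu)
open Fermat.Agent.Lib.EllPar (KillsEllPar)

namespace Fermat.Agent.S41.P

variable (Γ : Subgroup SL(2, ℤ)) {R : Type*}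

theorem Fan_comm_T {c : SL(2, ℤ)} {n m : ℤ} (hn : n ≠ 0) (h : T ^ n * c = c * T ^ m) :
    m = n ∧ ∃ j : ℤ, c = T ^ j ∨ c = - T ^ j := by
  have h00 := congrArg (fun x : SL(2, ℤ) => x 0 0) h
  have h01 := congrArg (fun x : SL(2, ℤ) => x 0 1) h
  simp only [coe_mul, coe_T_zpow, Matrix.mul_apply, Fin.sum_univ_two, Matrix.of_apply,
    Matrix.cons_val_zero, Matrix.cons_val_one, Matrix.cons_val', Matrix.cons_val_fin_one] at h00 h01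
  have hdet := Matrix.SpecialLinearGroup.det_coe c
  rw [Matrix.det_fin_two] at hdet
  have h10 : c 1 0 = 0 := by
    have : n * c 1 0 = 0 := by linarith
    exact (mul_eq_zero.1 this).resolve_left hn
  rw [h10, mul_zero, sub_zero] at hdet
  rcases Int.eq_one_or_neg_one_of_mul_eq_one' hdet with ⟨ha, hd⟩ | ⟨ha, hd⟩
  · refine ⟨by rw [ha, hd] at h01; linarith, c 0 1, Or.inl ?_⟩
    ext i j
    fin_cases i <;> fin_cases j <;> simp [coe_T_zpow, ha, hd, h10]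
  · refine ⟨by rw [ha, hd] at h01; linarith, - c 0 1, Or.inr ?_⟩
    ext i j
    fin_cases i <;> fin_cases j <;> simp [coe_T_zpow, ha, hd, h10]

theorem Fan_conj_T {h g : SL(2, ℤ)} {n m : ℤ} (hn : n ≠ 0)
    (H : (h * T ^ n * h⁻¹) * g = g * T ^ m) :
    m = n ∧ ∃ j : ℤ, g = h * T ^ j ∨ g = - (h * T ^ j) := by
  have key : T ^ n * (h⁻¹ * g) = (h⁻¹ * g) * T ^ m := by
    calc T ^ n * (h⁻¹ * g) = h⁻¹ * ((h * T ^ n * h⁻¹) * g) := by group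
      _ = h⁻¹ * (g * T ^ m) := by rw [H]
      _ = _ := by group
  obtain ⟨h1, j, hj⟩ := Fan_comm_T hn key
  refine ⟨h1, j, ?_⟩
  rcases hj with hj | hj
  · left; rw [← hj]; group
  · right; rw [← mul_neg, ← hj]; group

theorem Fan_conj_zpow (g : SL(2, ℤ)) (n : ℤ) : g * T ^ n * g⁻¹ = (g * T * g⁻¹) ^ n :=
  (conj_zpow).symm

variable {Γ}

theorem Fan_dvd {π : Γ} (hπ : IsPrimUnip Γ π) {g : SL(2, ℤ)} {k : ℕ} (hk : 0 < k)
    (hg : (π : SL(2, ℤ)) * g = g * T ^ k) {n : ℤ} (hn : g * T ^ n * g⁻¹ ∈ Γ) : (k : ℤ) ∣ n := by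
  have hd : 0 < Int.gcd k n := Int.gcd_pos_of_ne_zero_left _ (by exact_mod_cast hk.ne')
  have hπ' : (π : SL(2, ℤ)) = g * T ^ (k : ℤ) * g⁻¹ := by rw [zpow_natCast, ← hg]; group
  have hk' : g * T ^ (k : ℤ) * g⁻¹ ∈ Γ := hπ' ▸ π.2
  have hmem : g * T ^ ((Int.gcd k n : ℕ) : ℤ) * g⁻¹ ∈ Γ := by
    rw [Fan_conj_zpow] at hk' hn ⊢
    rw [Int.gcd_eq_gcd_ab, zpow_add, zpow_mul, zpow_mul]
    exact Γ.mul_mem (Γ.zpow_mem hk' _) (Γ.zpow_mem hn _)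
  obtain ⟨e, he⟩ : Int.gcd k n ∣ k := Int.natCast_dvd_natCast.1 (Int.gcd_dvd_left _ _)
  have h1 := hπ.2 ⟨_, hmem⟩ e ((isPosUnip_iff _).2 ⟨g, Int.gcd k n, hd, by
    simp only [zpow_natCast]; group⟩) (by
      apply Subtype.ext
      rw [Subgroup.coe_pow, hπ']
      simp only [Fan_conj_zpow]
      rw [← zpow_natCast _ e, ← zpow_mul]
      congr 1
      exact_mod_cast he)
  rw [h1, mul_one] at he
  rw [he]
  exact Int.gcd_dvd_right _ _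

variable (Γ) in
/-- the class of `a` in `Γ \ G`, as an element of `G ⧸ Γ`. -/
def Fan_q (a : SL(2, ℤ)) : SL(2, ℤ) ⧸ Γ := ((a⁻¹ : SL(2, ℤ)) : SL(2, ℤ) ⧸ Γ)

theorem Fan_q_eq {a b : SL(2, ℤ)} : Fan_q Γ a = Fan_q Γ b ↔ a * b⁻¹ ∈ Γ := by
  rw [Fan_q, Fan_q, QuotientGroup.eq, inv_inv]

theorem Fan_q_surj (x : SL(2, ℤ) ⧸ Γ) : ∃ a, Fan_q Γ a = x := by
  refine ⟨x.out⁻¹, ?_⟩
  rw [Fan_q, inv_inv, QuotientGroup.out_eq']

theorem Fan_f_out (f : SL(2, ℤ) → R) (hf : ∀ (γ : Γ) x, f ((γ : SL(2, ℤ)) * x) = f x)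
    (a : SL(2, ℤ)) : f ((Fan_q Γ a).out)⁻¹ = f a := by
  have h1 : (((Fan_q Γ a).out : SL(2, ℤ)) : SL(2, ℤ) ⧸ Γ) = ((a⁻¹ : SL(2, ℤ)) : SL(2, ℤ) ⧸ Γ) :=
    QuotientGroup.out_eq' _
  rw [QuotientGroup.eq] at h1
  have h2 := hf ⟨_, h1⟩ a
  simpa using h2

theorem Fan_inj {g : PUClasses Γ → SL(2, ℤ)} {k : PUClasses Γ → ℕ} (hk : ∀ κ, 0 < k κ)
    (hgk : ∀ κ, (((Quotient.out κ).1 : Γ) : SL(2, ℤ)) * g κ = g κ * T ^ (k κ))
    {κ κ' : PUClasses Γ} {i i' : ℕ} (hi : i < k κ) (hi' : i' < k κ')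
    (h : (g κ * T ^ (i + 1)) * (g κ' * T ^ (i' + 1))⁻¹ ∈ Γ) : κ = κ' ∧ i = i' := by
  have hπ : (((Quotient.out κ).1 : Γ) : SL(2, ℤ)) = g κ * T ^ (k κ : ℤ) * (g κ)⁻¹ := by
    rw [zpow_natCast, ← hgk]; group
  have hπ' : (((Quotient.out κ').1 : Γ) : SL(2, ℤ)) = g κ' * T ^ (k κ' : ℤ) * (g κ')⁻¹ := by
    rw [zpow_natCast, ← hgk]; group
  have e1 : g κ * T ^ (k κ' : ℤ) * (g κ)⁻¹ =
      ((g κ * T ^ (i + 1)) * (g κ' * T ^ (i' + 1))⁻¹) * (((Quotient.out κ').1 : Γ) : SL(2, ℤ)) *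
        ((g κ * T ^ (i + 1)) * (g κ' * T ^ (i' + 1))⁻¹)⁻¹ := by
    rw [hπ']; group
  have e2 : g κ' * T ^ (k κ : ℤ) * (g κ')⁻¹ =
      ((g κ * T ^ (i + 1)) * (g κ' * T ^ (i' + 1))⁻¹)⁻¹ * (((Quotient.out κ).1 : Γ) : SL(2, ℤ)) *
        ((g κ * T ^ (i + 1)) * (g κ' * T ^ (i' + 1))⁻¹) := by
    rw [hπ]; group
  have d1 : (k κ : ℤ) ∣ (k κ' : ℤ) := Fan_dvd (Quotient.out κ).2 (hk κ) (hgk κ) (by
    rw [e1]; exact Γ.mul_mem (Γ.mul_mem h (Quotient.out κ').1.2) (Γ.inv_mem h))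
  have d2 : (k κ' : ℤ) ∣ (k κ : ℤ) := Fan_dvd (Quotient.out κ').2 (hk κ') (hgk κ') (by
    rw [e2]; exact Γ.mul_mem (Γ.mul_mem (Γ.inv_mem h) (Quotient.out κ).1.2) h)
  have hkk : k κ = k κ' :=
    Nat.dvd_antisymm (Int.natCast_dvd_natCast.1 d1) (Int.natCast_dvd_natCast.1 d2)
  have hκ : κ = κ' := by
    rw [← Quotient.out_eq κ, ← Quotient.out_eq κ']
    symm
    apply Quotient.sound
    refine ⟨⟨_, h⟩, ?_⟩
    apply Subtype.ext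
    rw [Subgroup.coe_mul, Subgroup.coe_mul, Subgroup.coe_inv, ← e1, hπ, hkk]
  subst hκ
  refine ⟨rfl, ?_⟩
  have d3 : (k κ : ℤ) ∣ (i : ℤ) - i' := Fan_dvd (Quotient.out κ).2 (hk κ) (hgk κ) (by
    have : g κ * T ^ ((i : ℤ) - i') * (g κ)⁻¹ = (g κ * T ^ (i + 1)) * (g κ * T ^ (i' + 1))⁻¹ := by
      rw [← zpow_natCast, ← zpow_natCast]
      push_cast
      group
    rw [this]; exact h)
  obtain ⟨e, he⟩ := d3
  have hkpos : (0 : ℤ) < k κ := by exact_mod_cast hk κ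
  have hi1 : (i : ℤ) < k κ := by exact_mod_cast hi
  have hi2 : (i' : ℤ) < k κ := by exact_mod_cast hi'
  have he0 : e = 0 := by
    by_contra hne
    rcases lt_or_gt_of_ne hne with hlt | hgt
    · have : (k κ : ℤ) * e ≤ (k κ : ℤ) * (-1) := by
        apply mul_le_mul_of_nonneg_left _ hkpos.le
        omega
      omega
    · have : (k κ : ℤ) * 1 ≤ (k κ : ℤ) * e := by
        apply mul_le_mul_of_nonneg_left _ hkpos.le
        omega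
      omega
  rw [he0, mul_zero] at he
  omega

/-- the primitive positive unipotent element of `Γ` fixing the cusp `h ∞`. -/
theorem Fan_exists_prim [Γ.FiniteIndex] (h : SL(2, ℤ)) :
    ∃ (π : Γ) (n : ℕ), 0 < n ∧ IsPrimUnip Γ π ∧ (π : SL(2, ℤ)) = h * T ^ (n : ℤ) * h⁻¹ := by
  classical
  have hex : ∃ n, 0 < n ∧ (h * T * h⁻¹) ^ n ∈ Γ := by
    obtain ⟨n, h1, -, h2⟩ :=
      Subgroup.exists_pow_mem_of_index_ne_zero (H := Γ) Subgroup.FiniteIndex.index_ne_zero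
        (h * T * h⁻¹)
    exact ⟨n, h1, h2⟩
  obtain ⟨hpos, hmem⟩ := Nat.find_spec hex
  have hmin := fun m => Nat.find_min' hex (m := m)
  set n₀ := Nat.find hex with hn₀
  have hmem' : h * T ^ (n₀ : ℤ) * h⁻¹ ∈ Γ := by
    rw [Fan_conj_zpow, zpow_natCast]; exact hmem
  refine ⟨⟨_, hmem'⟩, n₀, hpos, ⟨(isPosUnip_iff _).2 ⟨h, n₀, hpos, by
    simp only [zpow_natCast]; group⟩, ?_⟩, rfl⟩
  intro π' j hπ' hj
  obtain ⟨g', k', hk', hg'⟩ := (isPosUnip_iff _).1 hπ'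
  have hπ'' : (π' : SL(2, ℤ)) = g' * T ^ (k' : ℤ) * g'⁻¹ := by
    rw [zpow_natCast, ← hg']; group
  have hj' : h * T ^ (n₀ : ℤ) * h⁻¹ = (π' : SL(2, ℤ)) ^ j := by
    have := congrArg (fun x : Γ => (x : SL(2, ℤ))) hj
    simpa using this
  have H : (h * T ^ (n₀ : ℤ) * h⁻¹) * g' = g' * T ^ ((k' : ℤ) * j) := by
    rw [hj', hπ'', Fan_conj_zpow, ← zpow_natCast _ j, ← zpow_mul, ← Fan_conj_zpow]
    group
  obtain ⟨hkj, l, hl⟩ := Fan_conj_T (by exact_mod_cast hpos.ne') H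
  have hg'' : (π' : SL(2, ℤ)) * (h * T ^ l) = (h * T ^ l) * T ^ k' := by
    rcases hl with hl | hl
    · rw [← hl]; exact hg'
    · rw [hl, mul_neg, neg_mul, neg_inj] at hg'
      exact hg'
  have hπ3 : (π' : SL(2, ℤ)) = (h * T * h⁻¹) ^ k' := by
    rw [← zpow_natCast, ← Fan_conj_zpow]
    calc (π' : SL(2, ℤ)) = ((π' : SL(2, ℤ)) * (h * T ^ l)) * (h * T ^ l)⁻¹ := by group
      _ = _ := by rw [hg'', ← zpow_natCast]; group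
  have hle : n₀ ≤ k' := hmin k' ⟨hk', hπ3 ▸ π'.2⟩
  have hkj' : k' * j = n₀ := by exact_mod_cast hkj
  have hj0 : j ≠ 0 := by
    rintro rfl
    omega
  have hj1 : k' * 1 ≤ k' * j := Nat.mul_le_mul_left _ (Nat.one_le_iff_ne_zero.2 hj0)
  have hk'' : k' = n₀ := by omega
  rw [hk''] at hkj'
  exact Nat.eq_of_mul_eq_mul_left hpos (by rw [hkj', mul_one])

theorem Fan_surj [Γ.FiniteIndex] (hneg : (-1 : SL(2, ℤ)) ∈ Γ)
    {g : PUClasses Γ → SL(2, ℤ)} {k : PUClasses Γ → ℕ} (hk : ∀ κ, 0 < k κ)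
    (hgk : ∀ κ, (((Quotient.out κ).1 : Γ) : SL(2, ℤ)) * g κ = g κ * T ^ (k κ))
    (h : SL(2, ℤ)) : ∃ κ i, i < k κ ∧ (g κ * T ^ (i + 1)) * h⁻¹ ∈ Γ := by
  obtain ⟨π, n, hn, hprim, hπ⟩ := Fan_exists_prim (Γ := Γ) h
  let κ : PUClasses Γ := Quotient.mk (puSetoid Γ) ⟨π, hprim⟩
  obtain ⟨γ, hγ⟩ : ∃ γ : Γ, π = γ * (Quotient.out κ).1 * γ⁻¹ :=
    Quotient.mk_out (s := puSetoid Γ) (⟨π, hprim⟩ : PU Γ)
  have hγ' : (π : SL(2, ℤ)) = γ * (((Quotient.out κ).1 : Γ) : SL(2, ℤ)) * (γ : SL(2, ℤ))⁻¹ := by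
    have := congrArg (fun x : Γ => (x : SL(2, ℤ))) hγ
    simpa using this
  have H : (h * T ^ (n : ℤ) * h⁻¹) * ((γ : SL(2, ℤ)) * g κ) =
      ((γ : SL(2, ℤ)) * g κ) * T ^ (k κ : ℤ) := by
    rw [← hπ, hγ', zpow_natCast, mul_assoc _ (g κ), ← hgk]
    group
  obtain ⟨-, l, hl⟩ := Fan_conj_T (by exact_mod_cast hn.ne') H
  have hkpos : (0 : ℤ) < k κ := by exact_mod_cast hk κ
  -- exponent
  have hi0 : 0 ≤ (-l - 1) % (k κ : ℤ) := Int.emod_nonneg _ hkpos.ne'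
  have hi1 : (-l - 1) % (k κ : ℤ) < k κ := Int.emod_lt_of_pos _ hkpos
  obtain ⟨i, hi⟩ := Int.eq_ofNat_of_zero_le hi0
  refine ⟨κ, i, by rw [hi] at hi1; exact_mod_cast hi1, ?_⟩
  obtain ⟨e, he⟩ : (k κ : ℤ) ∣ (i : ℤ) + 1 + l := by
    rw [← hi]
    have := Int.emod_add_mul_ediv (-l - 1) (k κ : ℤ)
    exact ⟨-((-l - 1) / (k κ : ℤ)), by linarith⟩
  have hout : (((Quotient.out κ).1 : Γ) : SL(2, ℤ)) = g κ * T ^ (k κ : ℤ) * (g κ)⁻¹ := by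
    rw [zpow_natCast, ← hgk]; group
  have hmem : g κ * T ^ ((i : ℤ) + 1 + l) * (g κ)⁻¹ ∈ Γ := by
    rw [he, Fan_conj_zpow, zpow_mul, ← Fan_conj_zpow, ← hout]
    exact Γ.zpow_mem (Quotient.out κ).1.2 _
  -- `g κ T^(i+1) h⁻¹ = ± (g κ T^(i+1+l) (g κ)⁻¹) γ⁻¹`
  have hh : h = (γ : SL(2, ℤ)) * g κ * T ^ (-l) ∨ h = (-1) * ((γ : SL(2, ℤ)) * g κ * T ^ (-l)) := by
    rcases hl with hl | hl
    · left; rw [hl]; group
    · right; rw [hl, neg_one_mul, neg_mul, neg_neg]; group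
  rcases hh with hh | hh
  · have : (g κ * T ^ (i + 1)) * h⁻¹ =
        (g κ * T ^ ((i : ℤ) + 1 + l) * (g κ)⁻¹) * (γ : SL(2, ℤ))⁻¹ := by
      rw [hh, ← zpow_natCast]; push_cast; group
    rw [this]
    exact Γ.mul_mem hmem (Γ.inv_mem γ.2)
  · have : (g κ * T ^ (i + 1)) * h⁻¹ =
        (g κ * T ^ ((i : ℤ) + 1 + l) * (g κ)⁻¹) * (γ : SL(2, ℤ))⁻¹ * (-1 : SL(2, ℤ))⁻¹ := by
      rw [hh, ← zpow_natCast]; push_cast; group
    rw [this]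
    exact Γ.mul_mem (Γ.mul_mem hmem (Γ.inv_mem γ.2)) (Γ.inv_mem hneg)

variable (Γ)

/-- **Fans.**  The classes are finite in number and `Γ \ G` is the disjoint union of the fans. -/
theorem exists_fan [Γ.FiniteIndex] (hneg : (-1 : SL(2, ℤ)) ∈ Γ) [AddCommMonoid R] :
    Finite (PUClasses Γ) ∧
    ∃ (g : PUClasses Γ → SL(2, ℤ)) (k : PUClasses Γ → ℕ),
      (∀ κ, (((Quotient.out κ).1 : Γ) : SL(2, ℤ)) * g κ = g κ * T ^ (k κ)) ∧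
      ∀ f : SL(2, ℤ) → R, (∀ (γ : Γ) x, f ((γ : SL(2, ℤ)) * x) = f x) →
        sumQ Γ f = ∑ᶠ κ, ∑ i ∈ Finset.range (k κ), f (g κ * T ^ (i + 1)) := by
  classical
  choose g k hk hgk using fun κ : PUClasses Γ => (isPosUnip_iff _).1 (Quotient.out κ).2.1
  have hfin : Finite (PUClasses Γ) :=
    Finite.of_injective (fun κ => Fan_q Γ (g κ * T ^ (0 + 1)))
      (fun κ κ' h => (Fan_inj hk hgk (hk κ) (hk κ') (Fan_q_eq.1 h)).1)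
  refine ⟨hfin, g, k, hgk, fun f hf => ?_⟩
  let Φ : (Σ κ, Fin (k κ)) → SL(2, ℤ) ⧸ Γ := fun x => Fan_q Γ (g x.1 * T ^ (x.2.1 + 1))
  have hΦ : Function.Bijective Φ := by
    constructor
    · rintro ⟨κ, i⟩ ⟨κ', i'⟩ h
      obtain ⟨h1, h2⟩ := Fan_inj hk hgk i.2 i'.2 (Fan_q_eq.1 h)
      subst h1
      have : i = i' := Fin.ext h2
      rw [this]
    · intro x
      obtain ⟨a, rfl⟩ := Fan_q_surj x
      obtain ⟨κ, i, hi, hmem⟩ := Fan_surj hneg hk hgk a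
      exact ⟨⟨κ, ⟨i, hi⟩⟩, Fan_q_eq.2 hmem⟩
  have := Fintype.ofFinite (PUClasses Γ)
  have := Fintype.ofFinite (SL(2, ℤ) ⧸ Γ)
  rw [sumQ, finsum_eq_sum_of_fintype, finsum_eq_sum_of_fintype,
    ← (Equiv.ofBijective Φ hΦ).sum_comp, Fintype.sum_sigma]
  refine Finset.sum_congr rfl fun κ _ => ?_
  rw [Finset.sum_range]
  refine Finset.sum_congr rfl fun i _ => ?_
  exact Fan_f_out f hf _

end Fermat.Agent.S41.P
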