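import Fermat.Agent.S41.P.Pair

/-!
# S41, module P, file Heis: the Heisenberg cochain attached to potentials
-/

set_option autoImplicit false

open Matrix.SpecialLinearGroup ModularGroup
open scoped MatrixGroups
open Fermat.Agent.S16.Crossing (Uu)
open Fermat.Agent.Lib.EllPar (KillsEllPar)

namespace Fermat.Agent.S41.P

variable {Γ : Subgroup SL(2, ℤ)} {R : Type*} [CommRing R]

/-- the odd edge function `n g = m g * (u g + u (g S)) / 2`, without the division by `2`. -/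
def heisEdge (u h : SL(2, ℤ) → R) (g : SL(2, ℤ)) : R := (h g - h (g * S)) * (u g + u (g * S))

theorem Heis_mul_S_S (g : SL(2, ℤ)) : g * S * S = -g := by
  rw [mul_assoc, ← pow_two, Fermat.Agent.S16.Crossing.S_sq, mul_neg, mul_one]

theorem Heis_mul_Uu_inv (g : SL(2, ℤ)) : g * Uu⁻¹ = -(g * T * S) := by
  have h1 : g * Uu⁻¹ * S * S = g * T * S := by
    rw [Fermat.Agent.S16.Crossing.T_eq, ← mul_assoc]
  rw [← h1, Heis_mul_S_S, neg_neg]

theorem Heis_edge_mul_S {φ ψ : Additive Γ →+ R} {u h : SL(2, ℤ) → R} (hu : IsCuspPot Γ φ u)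
    (hh : IsTriPot Γ ψ h) (g : SL(2, ℤ)) : heisEdge u h (g * S) = - heisEdge u h g := by
  unfold heisEdge
  rw [Heis_mul_S_S, hu.right_neg, hh.right_neg]
  ring

theorem Heis_edge_neg {φ ψ : Additive Γ →+ R} {u h : SL(2, ℤ) → R} (hu : IsCuspPot Γ φ u)
    (hh : IsTriPot Γ ψ h) (g : SL(2, ℤ)) : heisEdge u h (-g) = heisEdge u h g := by
  unfold heisEdge
  rw [neg_mul, hu.right_neg, hh.right_neg, hu.right_neg, hh.right_neg]

theorem Heis_edge_left {φ ψ : Additive Γ →+ R} {u h : SL(2, ℤ) → R} (hu : IsCuspPot Γ φ u)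
    (hh : IsTriPot Γ ψ h) (γ : Γ) (g : SL(2, ℤ)) :
    heisEdge u h ((γ : SL(2, ℤ)) * g) =
      heisEdge u h g + 2 * φ (Additive.ofMul γ) * (h g - h (g * S)) := by
  unfold heisEdge
  rw [mul_assoc, hu.left, hh.left, hu.left, hh.left]
  ring

/-- Existence of `C` and `d` (with a factor `2`: `d` is a Heisenberg cochain for `(2 φ, ψ)`):
`C := S16.Crossing.prim S chi (heisEdge u h)`. -/
theorem exists_heis {φ ψ : Additive Γ →+ R} {u h : SL(2, ℤ) → R} (hu : IsCuspPot Γ φ u)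
    (hh : IsTriPot Γ ψ h) :
    ∃ (C : SL(2, ℤ) → R) (d : Γ → R), (∀ g, C (g * Uu) = C g) ∧
      (∀ g, C (g * S) = C g - heisEdge u h g) ∧
      (∀ (γ : Γ) g, C ((γ : SL(2, ℤ)) * g) = C g + 2 * φ (Additive.ofMul γ) * h g + d γ) ∧
      IsHeis Γ (2 • φ) ψ d := by
  have hJ : ∀ g, heisEdge u h (g * S) = - heisEdge u h g := Heis_edge_mul_S hu hh
  set C : SL(2, ℤ) → R :=
    Fermat.Agent.S16.Crossing.prim S Fermat.Agent.S16.Crossing.chi (heisEdge u h) with hCdef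
  have hCU : ∀ g, C (g * Uu) = C g :=
    Fermat.Agent.S16.Crossing.prim_mul_U Fermat.Agent.S16.Crossing.isSide hJ
  have hCS : ∀ g, C (g * S) = C g - heisEdge u h g :=
    Fermat.Agent.S16.Crossing.prim_mul_S Fermat.Agent.S16.Crossing.isSide hJ
  have hC : ∀ (γ : Γ) g, C ((γ : SL(2, ℤ)) * g) = C g + 2 * φ (Additive.ofMul γ) * h g +
      (C ((γ : SL(2, ℤ)) * 1) - C 1 - 2 * φ (Additive.ofMul γ) * h 1) := by
    intro γ g
    have hconst := const_of_right_invariant'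
      (fun g => C ((γ : SL(2, ℤ)) * g) - C g - 2 * φ (Additive.ofMul γ) * h g)
      (fun g => by
        show C ((γ : SL(2, ℤ)) * (g * S)) - C (g * S) - 2 * φ (Additive.ofMul γ) * h (g * S) =
          C ((γ : SL(2, ℤ)) * g) - C g - 2 * φ (Additive.ofMul γ) * h g
        rw [← mul_assoc, hCS, hCS, Heis_edge_left hu hh]
        ring)
      (fun g => by
        show C ((γ : SL(2, ℤ)) * (g * Uu)) - C (g * Uu) - 2 * φ (Additive.ofMul γ) * h (g * Uu) =
          C ((γ : SL(2, ℤ)) * g) - C g - 2 * φ (Additive.ofMul γ) * h g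
        rw [← mul_assoc, hCU, hCU, hh.right_U]) g 1
    have hconst' : C ((γ : SL(2, ℤ)) * g) - C g - 2 * φ (Additive.ofMul γ) * h g =
      C ((γ : SL(2, ℤ)) * 1) - C 1 - 2 * φ (Additive.ofMul γ) * h 1 := hconst
    rw [← hconst']
    ring
  refine ⟨C, fun γ => C ((γ : SL(2, ℤ)) * 1) - C 1 - 2 * φ (Additive.ofMul γ) * h 1,
    hCU, hCS, hC, ?_⟩
  intro γ γ'
  have h1 := hC (γ * γ') 1
  have h2 := hC γ ((γ' : SL(2, ℤ)) * 1)
  have h3 := hC γ' 1
  have h4 : ((γ * γ' : Γ) : SL(2, ℤ)) * 1 = (γ : SL(2, ℤ)) * ((γ' : SL(2, ℤ)) * 1) := by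
    rw [Subgroup.coe_mul, mul_assoc]
  have h5 : φ (Additive.ofMul (γ * γ')) = φ (Additive.ofMul γ) + φ (Additive.ofMul γ') := by
    rw [ofMul_mul, map_add]
  have h6 : (2 • φ) (Additive.ofMul γ) = 2 * φ (Additive.ofMul γ) := by
    rw [AddMonoidHom.smul_apply, two_smul, two_mul]
  rw [h4, h2, h3, hh.left, h5] at h1
  rw [h6]
  show C (((γ * γ' : Γ) : SL(2, ℤ)) * 1) - C 1 - 2 * φ (Additive.ofMul (γ * γ')) * h 1 =
    (C ((γ : SL(2, ℤ)) * 1) - C 1 - 2 * φ (Additive.ofMul γ) * h 1) +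
    (C ((γ' : SL(2, ℤ)) * 1) - C 1 - 2 * φ (Additive.ofMul γ') * h 1) +
    2 * φ (Additive.ofMul γ) * ψ (Additive.ofMul γ')
  rw [h4, h2, h3, hh.left, h5]
  ring

theorem Heis_u_mul_T_pow {φ : Additive Γ →+ R} {u : SL(2, ℤ) → R} (hu : IsCuspPot Γ φ u)
    (g : SL(2, ℤ)) (k : ℕ) : u (g * T ^ k) = u g := by
  induction k with
  | zero => rw [pow_zero, mul_one]
  | succ k ih => rw [pow_succ, ← mul_assoc, hu.right_T, ih]

theorem Heis_h_mul_T_S {ψ : Additive Γ →+ R} {h : SL(2, ℤ) → R} (hh : IsTriPot Γ ψ h)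
    (g : SL(2, ℤ)) : h (g * T * S) = h g := by
  have h1 := hh.right_U (g * Uu⁻¹)
  rw [inv_mul_cancel_right, Heis_mul_Uu_inv, hh.right_neg] at h1
  exact h1.symm

theorem Heis_C_mul_T {φ ψ : Additive Γ →+ R} {u h : SL(2, ℤ) → R} (hu : IsCuspPot Γ φ u)
    (hh : IsTriPot Γ ψ h) {C : SL(2, ℤ) → R} (hCU : ∀ g, C (g * Uu) = C g)
    (hCS : ∀ g, C (g * S) = C g - heisEdge u h g) (g : SL(2, ℤ)) :
    C (g * T) = C g + heisEdge u h (g * T) := by
  have h1 : C (g * Uu⁻¹) = C g := by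
    have := hCU (g * Uu⁻¹)
    rw [inv_mul_cancel_right] at this
    exact this.symm
  have h2 : g * T = g * Uu⁻¹ * S := by
    rw [Fermat.Agent.S16.Crossing.T_eq, ← mul_assoc]
  have h3 : heisEdge u h (g * Uu⁻¹) = - heisEdge u h (g * T) := by
    rw [Heis_mul_Uu_inv, Heis_edge_neg hu hh, Heis_edge_mul_S hu hh]
  calc C (g * T) = C (g * Uu⁻¹ * S) := by rw [← h2]
    _ = C (g * Uu⁻¹) - heisEdge u h (g * Uu⁻¹) := hCS _
    _ = C g + heisEdge u h (g * T) := by rw [h1, h3, sub_neg_eq_add]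

theorem Heis_C_mul_T_pow {φ ψ : Additive Γ →+ R} {u h : SL(2, ℤ) → R} (hu : IsCuspPot Γ φ u)
    (hh : IsTriPot Γ ψ h) {C : SL(2, ℤ) → R} (hCU : ∀ g, C (g * Uu) = C g)
    (hCS : ∀ g, C (g * S) = C g - heisEdge u h g) (g : SL(2, ℤ)) (k : ℕ) :
    C (g * T ^ k) = C g + ∑ i ∈ Finset.range k, heisEdge u h (g * T ^ (i + 1)) := by
  induction k with
  | zero => simp
  | succ k ih =>
    rw [Finset.sum_range_succ, ← add_assoc, ← ih, pow_succ, ← mul_assoc,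
      Heis_C_mul_T hu hh hCU hCS]

theorem Heis_h_mul_T_pow {ψ : Additive Γ →+ R} {h : SL(2, ℤ) → R} (hh : IsTriPot Γ ψ h)
    (g : SL(2, ℤ)) (k : ℕ) :
    h (g * T ^ k) = h g + ∑ i ∈ Finset.range k,
      (h (g * T ^ (i + 1)) - h (g * T ^ (i + 1) * S)) := by
  induction k with
  | zero => simp
  | succ k ih =>
    rw [Finset.sum_range_succ, ← add_assoc, ← ih]
    have h1 : h (g * T ^ (k + 1) * S) = h (g * T ^ k) := by
      rw [pow_succ, ← mul_assoc, Heis_h_mul_T_S hh]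
    rw [h1]
    ring

theorem Heis_isEllPar {π g : SL(2, ℤ)} {k : ℕ} (hπ : π * g = g * T ^ k) :
    Fermat.Agent.Lib.EllPar.IsEllPar π := by
  right
  have h1 : π = g * T ^ k * g⁻¹ := by rw [← hπ, mul_inv_cancel_right]
  have h2 : (π : Matrix (Fin 2) (Fin 2) ℤ).trace = 2 := by
    rw [h1, Matrix.SpecialLinearGroup.coe_mul, Matrix.SpecialLinearGroup.coe_mul,
      Matrix.trace_mul_cycle, ← Matrix.SpecialLinearGroup.coe_mul, inv_mul_cancel,
      Matrix.SpecialLinearGroup.coe_one, one_mul, ← zpow_natCast, ModularGroup.coe_T_zpow]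
    simp [Matrix.trace_fin_two]
  rw [h2]
  norm_num

/-- value on a unipotent element `π = g T^k g⁻¹`. -/
theorem heis_unipotent {φ ψ : Additive Γ →+ R} (hφ : KillsEllPar Γ φ) (hψ : KillsEllPar Γ ψ)
    {u h : SL(2, ℤ) → R} (hu : IsCuspPot Γ φ u)
    (hh : IsTriPot Γ ψ h) {C : SL(2, ℤ) → R} {d : Γ → R} (hCU : ∀ g, C (g * Uu) = C g)
    (hCS : ∀ g, C (g * S) = C g - heisEdge u h g)
    (hC : ∀ (γ : Γ) g, C ((γ : SL(2, ℤ)) * g) = C g + 2 * φ (Additive.ofMul γ) * h g + d γ)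
    (π : Γ) (g : SL(2, ℤ)) (k : ℕ) (hπ : (π : SL(2, ℤ)) * g = g * T ^ k) :
    d π = ∑ i ∈ Finset.range k,
      (u (g * T ^ (i + 1) * S) - u (g * T ^ (i + 1))) *
        (h (g * T ^ (i + 1)) - h (g * T ^ (i + 1) * S)) := by
  have hE := Heis_isEllPar hπ
  have hφπ : φ (Additive.ofMul π) = 0 := hφ π hE
  have hψπ : ψ (Additive.ofMul π) = 0 := hψ π hE
  have h1 := hC π g
  rw [hπ, hφπ, Heis_C_mul_T_pow hu hh hCU hCS] at h1
  have h2 := hh.left π g
  rw [hπ, hψπ, Heis_h_mul_T_pow hh, add_zero] at h2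
  have h3 : ∑ i ∈ Finset.range k, (h (g * T ^ (i + 1)) - h (g * T ^ (i + 1) * S)) = 0 :=
    add_eq_left.mp h2
  have h4 : d π = ∑ i ∈ Finset.range k, heisEdge u h (g * T ^ (i + 1)) := by
    have : C g + ∑ i ∈ Finset.range k, heisEdge u h (g * T ^ (i + 1)) = C g + d π := by
      rw [h1]; ring
    exact (add_left_cancel this).symm
  have h5 : ∑ i ∈ Finset.range k, heisEdge u h (g * T ^ (i + 1)) =
      ∑ i ∈ Finset.range k,
        (u (g * T ^ (i + 1) * S) - u (g * T ^ (i + 1))) *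
          (h (g * T ^ (i + 1)) - h (g * T ^ (i + 1) * S)) +
      2 * u g * ∑ i ∈ Finset.range k, (h (g * T ^ (i + 1)) - h (g * T ^ (i + 1) * S)) := by
    rw [Finset.mul_sum, ← Finset.sum_add_distrib]
    refine Finset.sum_congr rfl fun i _ => ?_
    unfold heisEdge
    rw [Heis_u_mul_T_pow hu]
    ring
  rw [h4, h5, h3, mul_zero, add_zero]

end Fermat.Agent.S41.P
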