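import Fermat.Agent.S41.P.SumQ

/-!
# S41, module P, file NondegB: linear algebra on `Γ \ G`
-/

set_option autoImplicit false

open Matrix.SpecialLinearGroup ModularGroup
open scoped MatrixGroups
open Fermat.Agent.S16.Crossing (Uu)
open Fermat.Agent.Lib.EllPar (KillsEllPar)

namespace Fermat.Agent.S41.P

variable {Γ : Subgroup SL(2, ℤ)} {k : Type*}

/-- lift of a function on `G ⧸ Γ` to a left `Γ`-invariant function on `G`. -/
def NondegB_lift (φ : SL(2, ℤ) ⧸ Γ → k) (g : SL(2, ℤ)) : k :=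
  φ ((g⁻¹ : SL(2, ℤ)) : SL(2, ℤ) ⧸ Γ)

theorem NondegB_lift_left (φ : SL(2, ℤ) ⧸ Γ → k) (γ : Γ) (g : SL(2, ℤ)) :
    NondegB_lift φ ((γ : SL(2, ℤ)) * g) = NondegB_lift φ g := by
  unfold NondegB_lift
  congr 1
  rw [mul_inv_rev]
  exact QuotientGroup.mk_mul_of_mem _ (Γ.inv_mem γ.2)

theorem NondegB_lift_right (φ : SL(2, ℤ) ⧸ Γ → k) (g a : SL(2, ℤ)) :
    NondegB_lift φ (g * a) = φ (a⁻¹ • ((g⁻¹ : SL(2, ℤ)) : SL(2, ℤ) ⧸ Γ)) := by
  unfold NondegB_lift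
  rw [mul_inv_rev]
  rfl

theorem NondegB_eq_lift (F : SL(2, ℤ) → k)
    (hF : ∀ (γ : Γ) g, F ((γ : SL(2, ℤ)) * g) = F g) (g : SL(2, ℤ)) :
    F g = NondegB_lift (Γ := Γ) (fun x => F (x.out)⁻¹) g := by
  unfold NondegB_lift
  obtain ⟨h, hh⟩ := QuotientGroup.mk_out_eq_mul Γ g⁻¹
  show F g = F ((QuotientGroup.mk g⁻¹ : SL(2, ℤ) ⧸ Γ).out)⁻¹
  rw [hh, mul_inv_rev, inv_inv]
  exact (hF h⁻¹ g).symm

theorem NondegB_S_smul (hneg : (-1 : SL(2, ℤ)) ∈ Γ) (x : SL(2, ℤ) ⧸ Γ) :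
    S • x = S⁻¹ • x := by
  induction x using QuotientGroup.induction_on with
  | H g =>
    show ((S * g : SL(2, ℤ)) : SL(2, ℤ) ⧸ Γ) = ((S⁻¹ * g : SL(2, ℤ)) : SL(2, ℤ) ⧸ Γ)
    rw [QuotientGroup.eq]
    have h1 : (S * g)⁻¹ * (S⁻¹ * g) = g⁻¹ * (S * S)⁻¹ * g := by group
    have h2 : (S * S : SL(2, ℤ)) = -1 := by
      rw [← pow_two]; exact Fermat.Agent.S16.Crossing.S_sq
    have h3 : g⁻¹ * (-1 : SL(2, ℤ))⁻¹ * g = -1 := by
      have : (-1 : SL(2, ℤ))⁻¹ = -1 := by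
        rw [inv_eq_iff_mul_eq_one]; simp
      rw [this]
      simp
    rw [h1, h2, h3]
    exact hneg

/-- the odd functions. -/
def NondegB_A (Γ : Subgroup SL(2, ℤ)) (k : Type*) [Field k] :
    Submodule k (SL(2, ℤ) ⧸ Γ → k) where
  carrier := {m | ∀ x, m (S⁻¹ • x) = - m x}
  add_mem' := by
    intro a b ha hb x
    simp only [Pi.add_apply, ha x, hb x]; ring
  zero_mem' := by
    intro x; simp
  smul_mem' := by
    intro c a ha x
    simp only [Pi.smul_apply, ha x, smul_eq_mul]; ring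

/-- the `T`-coboundaries. -/
def NondegB_B (Γ : Subgroup SL(2, ℤ)) (k : Type*) [Field k] :
    Submodule k (SL(2, ℤ) ⧸ Γ → k) where
  carrier := {m | ∃ b : SL(2, ℤ) ⧸ Γ → k, ∀ x, m x = b x - b (T • x)}
  add_mem' := by
    rintro a a' ⟨b, hb⟩ ⟨b', hb'⟩
    refine ⟨b + b', fun x => ?_⟩
    simp only [Pi.add_apply, hb x, hb' x]; ring
  zero_mem' := ⟨0, fun x => by simp⟩
  smul_mem' := by
    rintro c a ⟨b, hb⟩
    refine ⟨c • b, fun x => ?_⟩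
    simp only [Pi.smul_apply, hb x, smul_eq_mul]; ring

/-- linear algebra on the finite set `X = Γ \ G`: if `F` is orthogonal to all `m` as above, then
`F = a + v` with `a (g S) = a g`, `v (g T) = v g` (both `Γ`-invariant). -/
theorem exists_decomposition [Field k] (h2 : (2 : k) ≠ 0) [Γ.FiniteIndex]
    (hneg : (-1 : SL(2, ℤ)) ∈ Γ) (F : SL(2, ℤ) → k)
    (hF : ∀ (γ : Γ) g, F ((γ : SL(2, ℤ)) * g) = F g)
    (horth : ∀ m b : SL(2, ℤ) → k, (∀ (γ : Γ) g, m ((γ : SL(2, ℤ)) * g) = m g) →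
      (∀ g, m (g * S) = - m g) → (∀ (γ : Γ) g, b ((γ : SL(2, ℤ)) * g) = b g) →
      (∀ g, m g = b g - b (g * T⁻¹)) → sumQ Γ (fun g => F g * m g) = 0) :
    ∃ a v : SL(2, ℤ) → k, (∀ (γ : Γ) g, a ((γ : SL(2, ℤ)) * g) = a g) ∧
      (∀ (γ : Γ) g, v ((γ : SL(2, ℤ)) * g) = v g) ∧ (∀ g, a (g * S) = a g) ∧
      (∀ g, v (g * T) = v g) ∧ ∀ g, F g = a g + v g := by
  classical
  have : Fintype (SL(2, ℤ) ⧸ Γ) := Fintype.ofFinite _
  set Fh : SL(2, ℤ) ⧸ Γ → k := fun x => F (x.out)⁻¹ with hFh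
  -- the functional
  let Φ : Module.Dual k (SL(2, ℤ) ⧸ Γ → k) :=
    { toFun := fun m => ∑ x, Fh x * m x
      map_add' := by
        intro m m'
        simp only [Pi.add_apply, mul_add, Finset.sum_add_distrib]
      map_smul' := by
        intro c m
        simp only [Pi.smul_apply, smul_eq_mul, RingHom.id_apply, Finset.mul_sum]
        refine Finset.sum_congr rfl fun x _ => by ring }
  have hΦ : Φ ∈ (NondegB_A Γ k ⊓ NondegB_B Γ k).dualAnnihilator := by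
    rw [Submodule.mem_dualAnnihilator]
    rintro m ⟨hmA, b, hb⟩
    have h := horth (NondegB_lift m) (NondegB_lift b) (NondegB_lift_left m)
      (fun g => by rw [NondegB_lift_right]; exact hmA _) (NondegB_lift_left b)
      (fun g => by rw [NondegB_lift_right, inv_inv]; exact hb _)
    unfold sumQ at h
    rw [finsum_eq_sum_of_fintype] at h
    show ∑ x, Fh x * m x = 0
    rw [← h]
    refine Finset.sum_congr rfl fun x _ => ?_
    show Fh x * m x = F (x.out)⁻¹ * m (((x.out)⁻¹⁻¹ : SL(2, ℤ)) : SL(2, ℤ) ⧸ Γ)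
    rw [inv_inv, QuotientGroup.out_eq']
  rw [Subspace.dualAnnihilator_inf_eq, Submodule.mem_sup] at hΦ
  obtain ⟨α, hα, β, hβ, hαβ⟩ := hΦ
  rw [Submodule.mem_dualAnnihilator] at hα hβ
  refine ⟨NondegB_lift fun x => α (Pi.single x 1), NondegB_lift fun x => β (Pi.single x 1),
    NondegB_lift_left _, NondegB_lift_left _, fun g => ?_, fun g => ?_, fun g => ?_⟩
  · rw [NondegB_lift_right]
    unfold NondegB_lift
    set x : SL(2, ℤ) ⧸ Γ := ((g⁻¹ : SL(2, ℤ)) : SL(2, ℤ) ⧸ Γ)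
    rw [← sub_eq_zero, ← map_sub]
    apply hα
    intro y
    simp only [Pi.sub_apply, Pi.single_apply]
    have e1 : (S⁻¹ • y = S⁻¹ • x) ↔ y = x := smul_left_cancel_iff _
    have e2 : (S⁻¹ • y = x) ↔ y = S⁻¹ • x := by
      rw [← NondegB_S_smul hneg x, inv_smul_eq_iff]
    simp only [e1, e2]
    ring
  · rw [NondegB_lift_right]
    unfold NondegB_lift
    set x : SL(2, ℤ) ⧸ Γ := ((g⁻¹ : SL(2, ℤ)) : SL(2, ℤ) ⧸ Γ)
    rw [← sub_eq_zero, ← map_sub]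
    apply hβ
    refine ⟨- Pi.single x 1, fun y => ?_⟩
    simp only [Pi.sub_apply, Pi.neg_apply, Pi.single_apply]
    have e2 : (T • y = x) ↔ y = T⁻¹ • x := by
      rw [eq_inv_smul_iff]
    simp only [e2]
    ring
  · rw [NondegB_eq_lift F hF g]
    unfold NondegB_lift
    set x : SL(2, ℤ) ⧸ Γ := ((g⁻¹ : SL(2, ℤ)) : SL(2, ℤ) ⧸ Γ)
    rw [← LinearMap.add_apply, hαβ]
    show F (x.out)⁻¹ = ∑ y, Fh y * (Pi.single x (1 : k) : SL(2, ℤ) ⧸ Γ → k) y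
    simp [Pi.single_apply, hFh]

end Fermat.Agent.S41.P
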