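import Fermat.Agent.S41.P.NondegA
import Fermat.Agent.S41.P.NondegB

/-!
# S41, module P, file Nondeg: the pairing is nondegenerate over a field of characteristic `≠ 2`
-/

set_option autoImplicit false

open Matrix.SpecialLinearGroup ModularGroup
open scoped MatrixGroups
open Fermat.Agent.S16.Crossing (Uu)
open Fermat.Agent.Lib.EllPar (KillsEllPar)

namespace Fermat.Agent.S41.P

variable {Γ : Subgroup SL(2, ℤ)} {k : Type*}

/-- **Nondegeneracy.** -/
theorem eq_zero_of_isPair_zero [Field k] (h2 : (2 : k) ≠ 0) [Γ.FiniteIndex]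
    (hneg : (-1 : SL(2, ℤ)) ∈ Γ) (φ : Additive Γ →+ k) (hφ : KillsEllPar Γ φ)
    (h : ∀ ψ : Additive Γ →+ k, KillsEllPar Γ ψ → IsPair Γ φ ψ 0) : φ = 0 := by
  obtain ⟨u, hu⟩ := exists_isCuspPot Γ φ hφ
  have hSS : ∀ g : SL(2, ℤ), g * S * S = -g := by
    intro g
    rw [mul_assoc, ← pow_two, Fermat.Agent.S16.Crossing.S_sq, mul_neg, mul_one]
  -- the edge function of `u`
  obtain ⟨F, hFdef⟩ : ∃ F : SL(2, ℤ) → k, ∀ g, F g = u (g * S) - u g := ⟨_, fun _ => rfl⟩
  have hFinv : ∀ (γ : Γ) g, F ((γ : SL(2, ℤ)) * g) = F g := by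
    intro γ g
    rw [hFdef, hFdef, mul_assoc, hu.left, hu.left]
    ring
  have hFodd : ∀ g, F (g * S) = - F g := by
    intro g
    rw [hFdef, hFdef, hSS, hu.right_neg]
    ring
  have horth : ∀ m b : SL(2, ℤ) → k, (∀ (γ : Γ) g, m ((γ : SL(2, ℤ)) * g) = m g) →
      (∀ g, m (g * S) = - m g) → (∀ (γ : Γ) g, b ((γ : SL(2, ℤ)) * g) = b g) →
      (∀ g, m g = b g - b (g * T⁻¹)) → sumQ Γ (fun g => F g * m g) = 0 := by
    intro m b hm hmS hb hmb
    obtain ⟨ψ, hh, hψ, hpot, hhm⟩ :=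
      exists_hom_of_edge_function (isUnit_iff_ne_zero.2 h2) hneg m b hm hmS hb hmb
    have h1 : IsPair Γ φ ψ (pairOf Γ u hh) := ⟨u, hh, hu, hpot, rfl⟩
    have h3 : pairOf Γ u hh = 0 := h1.unique hφ hψ (h ψ hψ)
    have h4 : (fun g => F g * m g) = fun g => (u (g * S) - u g) * (hh g - hh (g * S)) := by
      funext g
      rw [hFdef, hhm]
    rw [h4]
    exact h3
  obtain ⟨a, v, -, hv, haS, hvT, hFav⟩ := exists_decomposition h2 hneg F hFinv horth
  -- `F g = (v g - v (g S)) / 2`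
  have hF2 : ∀ g, 2 * F g = v g - v (g * S) := by
    intro g
    have e1 := hFodd g
    rw [hFav (g * S), hFav g, haS] at e1
    rw [hFav g]
    linear_combination e1
  -- `w = u + v / 2` is right invariant under `S` and `T`
  obtain ⟨w, hwdef⟩ : ∃ w : SL(2, ℤ) → k, ∀ g, w g = u g + v g / 2 := ⟨_, fun _ => rfl⟩
  have hwS : ∀ g, w (g * S) = w g := by
    intro g
    have e1 := hF2 g
    rw [hFdef] at e1
    rw [hwdef, hwdef]
    field_simp
    linear_combination e1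
  have hwT : ∀ g, w (g * T) = w g := by
    intro g
    rw [hwdef, hwdef, hu.right_T, hvT]
  refine AddMonoidHom.ext fun x => ?_
  obtain ⟨γ, rfl⟩ : ∃ γ : Γ, Additive.ofMul γ = x := ⟨Additive.toMul x, rfl⟩
  have e1 := const_of_right_invariant w hwS hwT ((γ : SL(2, ℤ)) * 1) 1
  rw [hwdef, hwdef, hu.left, hv] at e1
  rw [AddMonoidHom.zero_apply]
  linear_combination e1

end Fermat.Agent.S41.P
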