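import Fermat.Agent.S41.P.Pair
import Fermat.Agent.S41.P.Ell
import Fermat.Agent.GR.A.SL2Fix2

/-!
# S41, module P, file NondegA: edge functions give homs
-/

set_option autoImplicit false

open Matrix.SpecialLinearGroup ModularGroup
open scoped MatrixGroups
open Fermat.Agent.S16.Crossing (Uu)
open Fermat.Agent.Lib.EllPar (KillsEllPar)

namespace Fermat.Agent.S41.P

variable {Γ : Subgroup SL(2, ℤ)} {k : Type*}

theorem NondegA_S_mul_S : (S * S : SL(2, ℤ)) = -1 := by
  rw [← pow_two]; exact Fermat.Agent.S16.Crossing.S_sq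

theorem NondegA_mul_S_S (g : SL(2, ℤ)) : g * S * S = -g := by
  rw [mul_assoc, NondegA_S_mul_S, mul_neg, mul_one]

/-- invariance under `g ↦ g * x` gives invariance under `g ↦ g * x ^ n`. -/
theorem NondegA_zpow_inv {A : Type*} (f : SL(2, ℤ) → A) (x : SL(2, ℤ))
    (hf : ∀ g, f (g * x) = f g) (g : SL(2, ℤ)) (n : ℤ) : f (g * x ^ n) = f g := by
  induction n using Int.induction_on with
  | zero => simp
  | succ n ih => rw [zpow_add_one, ← mul_assoc, hf, ih]
  | pred n ih =>
    have := hf (g * x ^ (-(n : ℤ) - 1))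
    rw [mul_assoc, ← zpow_add_one, sub_add_cancel] at this
    rw [← this, ih]

theorem NondegA_pow_inv {A : Type*} (f : SL(2, ℤ) → A) (x : SL(2, ℤ))
    (hf : ∀ g, f (g * x) = f g) (g : SL(2, ℤ)) (n : ℕ) : f (g * x ^ n) = f g := by
  have := NondegA_zpow_inv f x hf g n
  rwa [zpow_natCast] at this

/-- every odd `Γ`-invariant edge function with vanishing `T`-cycle sums comes from a hom killing
elliptic and parabolic elements.  The vanishing of the cycle sums is expressed by a primitive `b`:
`m g = b g - b (g T⁻¹)` with `b` left `Γ`-invariant.  (`h := S16.Crossing.prim S chi m`.) -/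
theorem exists_hom_of_edge_function [CommRing k] (h2 : IsUnit (2 : k))
    (hneg : (-1 : SL(2, ℤ)) ∈ Γ) (m b : SL(2, ℤ) → k)
    (hm : ∀ (γ : Γ) g, m ((γ : SL(2, ℤ)) * g) = m g) (hmS : ∀ g, m (g * S) = - m g)
    (hb : ∀ (γ : Γ) g, b ((γ : SL(2, ℤ)) * g) = b g) (hmb : ∀ g, m g = b g - b (g * T⁻¹)) :
    ∃ (ψ : Additive Γ →+ k) (h : SL(2, ℤ) → k), KillsEllPar Γ ψ ∧ IsTriPot Γ ψ h ∧
      ∀ g, h g - h (g * S) = m g := by
  classical
  have hs := Fermat.Agent.S16.Crossing.isSide
  set h : SL(2, ℤ) → k := Fermat.Agent.S16.Crossing.prim S Fermat.Agent.S16.Crossing.chi m with hh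
  have hU : ∀ g, h (g * Uu) = h g := fun g => Fermat.Agent.S16.Crossing.prim_mul_U hs hmS g
  have hS : ∀ g, h (g * S) = h g - m g := fun g => Fermat.Agent.S16.Crossing.prim_mul_S hs hmS g
  have hL : ∀ (γ : Γ) g, h ((γ : SL(2, ℤ)) * g) = h (γ : SL(2, ℤ)) + h g := fun γ g =>
    Fermat.Agent.S16.Crossing.prim_left_mul hs hmS (γ : SL(2, ℤ)) (hm γ) g
  have hSS : ∀ g, h (g * S * S) = h g := by
    intro g
    rw [hS, hS, hmS]; ring
  have hN : ∀ g, h (-g) = h g := by
    intro g
    rw [← NondegA_mul_S_S, hSS]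
  have hmSS : ∀ g, m (g * S * S) = m g := by
    intro g
    rw [hmS, hmS, neg_neg]
  have hmN : ∀ g, m (-g) = m g := by
    intro g
    rw [← NondegA_mul_S_S, hmSS]
  have hbN : ∀ g, b (-g) = b g := by
    intro g
    have := hb ⟨-1, hneg⟩ g
    simpa using this
  -- the function `h - b` is right `T`-invariant
  have hT : ∀ g, (fun x => h x - b x) (g * T) = (fun x => h x - b x) g := by
    intro g
    have h1 : g * T = g * Uu⁻¹ * S := by
      rw [mul_assoc, ← Fermat.Agent.S16.Crossing.T_eq]
    have h3 : h (g * Uu⁻¹) = h g := by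
      have := hU (g * Uu⁻¹)
      rw [inv_mul_cancel_right] at this
      exact this.symm
    have h4 : m (g * T) = - m (g * Uu⁻¹) := by rw [h1, hmS]
    have h5 : h (g * T) = h g - m (g * Uu⁻¹) := by rw [h1, hS, h3]
    have h6 := hmb (g * T)
    rw [mul_inv_cancel_right] at h6
    show h (g * T) - b (g * T) = h g - b g
    rw [h5]
    linear_combination h6 - h4
  let ψ : Additive Γ →+ k :=
    { toFun := fun γ => h ((Additive.toMul γ : Γ) : SL(2, ℤ))
      map_zero' := by
        show h ((1 : Γ) : SL(2, ℤ)) = 0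
        exact Fermat.Agent.S16.Crossing.prim_one
      map_add' := by
        intro x y
        show h (((Additive.toMul x * Additive.toMul y : Γ)) : SL(2, ℤ)) = _
        rw [Subgroup.coe_mul, hL] }
  have hψ : ∀ γ : Γ, ψ (Additive.ofMul γ) = h (γ : SL(2, ℤ)) := fun γ => rfl
  refine ⟨ψ, h, ?_, ⟨?_, hU, hN⟩, ?_⟩
  · intro γ hγ
    rw [hψ]
    rcases hγ with hγ | hγ
    · obtain ⟨g, n, hn⟩ := exists_conj_of_finOrder (γ : SL(2, ℤ)) hγ
      have hLg := hL γ g
      rcases hn with hn | hn | hn
      · -- `γ g = g S ^ n`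
        rcases Nat.even_or_odd' n with ⟨j, rfl | rfl⟩
        · have h7 : h (g * S ^ (2 * j)) = h g := by
            rw [pow_mul]
            refine NondegA_pow_inv h (S ^ 2) ?_ g j
            intro x
            rw [pow_two, ← mul_assoc, hSS]
          rw [hn, h7] at hLg
          linear_combination -hLg
        · have h7 : h (g * S ^ (2 * j)) = h g := by
            rw [pow_mul]
            refine NondegA_pow_inv h (S ^ 2) ?_ g j
            intro x
            rw [pow_two, ← mul_assoc, hSS]
          have h8 : m (g * S ^ (2 * j)) = m g := by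
            rw [pow_mul]
            refine NondegA_pow_inv m (S ^ 2) ?_ g j
            intro x
            rw [pow_two, ← mul_assoc, hmSS]
          have h9 : m g = - m g := by
            have := hm γ g
            rw [hn, pow_succ, ← mul_assoc, hmS, h8] at this
            exact this.symm
          have h10 : m g = 0 := by
            have : (2 : k) * m g = 0 := by linear_combination h9
            exact (h2.mul_right_eq_zero).1 this
          rw [hn, pow_succ, ← mul_assoc, hS, h7, h8, h10] at hLg
          linear_combination -hLg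
      · rw [hn, NondegA_pow_inv h Uu hU] at hLg
        linear_combination -hLg
      · rw [hn, hN, NondegA_pow_inv h Uu hU] at hLg
        linear_combination -hLg
    · obtain ⟨δ, n, hn⟩ := Fermat.Agent.GR.A.exists_conj_T_of_trace (γ : SL(2, ℤ)) hγ
      have hLg := hL γ δ
      have hTn := NondegA_zpow_inv (fun x => h x - b x) T hT δ n
      have hbg := hb γ δ
      rcases hn with hn | hn
      · have h11 : (γ : SL(2, ℤ)) * δ = δ * T ^ n := by rw [hn, inv_mul_cancel_right]
        rw [h11] at hLg hbg
        linear_combination hTn - hLg + hbg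
      · have h11 : (γ : SL(2, ℤ)) * δ = -(δ * T ^ n) := by
          rw [hn, neg_mul, inv_mul_cancel_right]
        rw [h11, hN] at hLg
        rw [h11, hbN] at hbg
        linear_combination hTn - hLg + hbg
  · intro γ g
    rw [hψ, hL, add_comm]
  · intro g
    rw [hS]; ring

end Fermat.Agent.S41.P
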