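import Fermat.Agent.S41.P.PairA

/-!
# S41, module P, file Pair: the pairing is well defined, biadditive, functorial
-/

set_option autoImplicit false

open Matrix.SpecialLinearGroup ModularGroup
open scoped MatrixGroups
open Fermat.Agent.S16.Crossing (Uu)
open Fermat.Agent.Lib.EllPar (KillsEllPar)

namespace Fermat.Agent.S41.P

variable {Γ : Subgroup SL(2, ℤ)} {R : Type*} [CommRing R]

theorem IsPair.unique [Γ.FiniteIndex] {φ ψ : Additive Γ →+ R} (hφ : KillsEllPar Γ φ)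
    (hψ : KillsEllPar Γ ψ) {b b' : R} (h : IsPair Γ φ ψ b) (h' : IsPair Γ φ ψ b') : b = b' := by
  obtain ⟨u, h₁, hu, hh, rfl⟩ := h
  obtain ⟨u', h₁', hu', hh', rfl⟩ := h'
  exact pairOf_eq hφ hψ hu hu' hh hh'

theorem exists_isPair {φ ψ : Additive Γ →+ R} (hφ : KillsEllPar Γ φ) (hψ : KillsEllPar Γ ψ) :
    ∃ b, IsPair Γ φ ψ b := by
  obtain ⟨u, hu⟩ := exists_isCuspPot Γ φ hφ
  obtain ⟨h, hh⟩ := exists_isTriPot Γ ψ hψ
  exact ⟨_, u, h, hu, hh, rfl⟩

theorem Pair_isCuspPot_add {φ φ' : Additive Γ →+ R} {u u' : SL(2, ℤ) → R}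
    (hu : IsCuspPot Γ φ u) (hu' : IsCuspPot Γ φ' u') :
    IsCuspPot Γ (φ + φ') (fun g => u g + u' g) :=
  ⟨fun γ g => by
      simp only [hu.left, hu'.left, AddMonoidHom.add_apply]
      ring,
    fun g => by simp only [hu.right_T, hu'.right_T],
    fun g => by simp only [hu.right_neg, hu'.right_neg]⟩

theorem Pair_isTriPot_add {ψ ψ' : Additive Γ →+ R} {h h' : SL(2, ℤ) → R}
    (hh : IsTriPot Γ ψ h) (hh' : IsTriPot Γ ψ' h') :
    IsTriPot Γ (ψ + ψ') (fun g => h g + h' g) :=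
  ⟨fun γ g => by
      simp only [hh.left, hh'.left, AddMonoidHom.add_apply]
      ring,
    fun g => by simp only [hh.right_U, hh'.right_U],
    fun g => by simp only [hh.right_neg, hh'.right_neg]⟩

theorem Pair_isCuspPot_smul {φ : Additive Γ →+ R} {u : SL(2, ℤ) → R} (c : R)
    (hu : IsCuspPot Γ φ u) : IsCuspPot Γ (c • φ) (fun g => c * u g) :=
  ⟨fun γ g => by
      simp only [hu.left, AddMonoidHom.smul_apply, smul_eq_mul]
      ring,
    fun g => by simp only [hu.right_T],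
    fun g => by simp only [hu.right_neg]⟩

theorem Pair_isTriPot_smul {ψ : Additive Γ →+ R} {h : SL(2, ℤ) → R} (c : R)
    (hh : IsTriPot Γ ψ h) : IsTriPot Γ (c • ψ) (fun g => c * h g) :=
  ⟨fun γ g => by
      simp only [hh.left, AddMonoidHom.smul_apply, smul_eq_mul]
      ring,
    fun g => by simp only [hh.right_U],
    fun g => by simp only [hh.right_neg]⟩

theorem Pair_pairOf_add_left [Γ.FiniteIndex] (u u' h : SL(2, ℤ) → R) :
    pairOf Γ (fun g => u g + u' g) h = pairOf Γ u h + pairOf Γ u' h := by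
  unfold pairOf
  rw [← sumQ_add]
  congr 1
  funext g
  ring

theorem Pair_pairOf_add_right [Γ.FiniteIndex] (u h h' : SL(2, ℤ) → R) :
    pairOf Γ u (fun g => h g + h' g) = pairOf Γ u h + pairOf Γ u h' := by
  unfold pairOf
  rw [← sumQ_add]
  congr 1
  funext g
  ring

theorem Pair_pairOf_smul_left [Γ.FiniteIndex] (c : R) (u h : SL(2, ℤ) → R) :
    pairOf Γ (fun g => c * u g) h = c * pairOf Γ u h := by
  unfold pairOf
  have e := sumQ_map Γ (AddMonoidHom.mulLeft c)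
    (fun g => (u (g * S) - u g) * (h g - h (g * S)))
  rw [AddMonoidHom.coe_mulLeft] at e
  rw [← e]
  congr 1
  funext g
  ring

theorem Pair_pairOf_smul_right [Γ.FiniteIndex] (c : R) (u h : SL(2, ℤ) → R) :
    pairOf Γ u (fun g => c * h g) = c * pairOf Γ u h := by
  unfold pairOf
  have e := sumQ_map Γ (AddMonoidHom.mulLeft c)
    (fun g => (u (g * S) - u g) * (h g - h (g * S)))
  rw [AddMonoidHom.coe_mulLeft] at e
  rw [← e]
  congr 1
  funext g
  ring

theorem IsPair.add_left [Γ.FiniteIndex] {φ φ' ψ : Additive Γ →+ R} (hψ : KillsEllPar Γ ψ)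
    (hφ : KillsEllPar Γ φ) (hφ' : KillsEllPar Γ φ') {b b' : R}
    (h : IsPair Γ φ ψ b) (h' : IsPair Γ φ' ψ b') : IsPair Γ (φ + φ') ψ (b + b') := by
  obtain ⟨u, h₁, hu, hh, rfl⟩ := h
  obtain ⟨u', h₁', hu', hh', rfl⟩ := h'
  rw [pairOf_eq hφ' hψ hu' hu' hh' hh]
  exact ⟨_, h₁, Pair_isCuspPot_add hu hu', hh, Pair_pairOf_add_left u u' h₁⟩

theorem IsPair.add_right [Γ.FiniteIndex] {φ ψ ψ' : Additive Γ →+ R} (hφ : KillsEllPar Γ φ)
    (hψ : KillsEllPar Γ ψ) (hψ' : KillsEllPar Γ ψ') {b b' : R}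
    (h : IsPair Γ φ ψ b) (h' : IsPair Γ φ ψ' b') : IsPair Γ φ (ψ + ψ') (b + b') := by
  obtain ⟨u, h₁, hu, hh, rfl⟩ := h
  obtain ⟨u', h₁', hu', hh', rfl⟩ := h'
  rw [pairOf_eq hφ hψ' hu' hu hh' hh']
  exact ⟨u, _, hu, Pair_isTriPot_add hh hh', Pair_pairOf_add_right u h₁ h₁'⟩

theorem IsPair.smul_left [Γ.FiniteIndex] {φ ψ : Additive Γ →+ R} {b : R} (c : R)
    (h : IsPair Γ φ ψ b) : IsPair Γ (c • φ) ψ (c * b) := by
  obtain ⟨u, h₁, hu, hh, rfl⟩ := h
  exact ⟨_, h₁, Pair_isCuspPot_smul c hu, hh, Pair_pairOf_smul_left c u h₁⟩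

theorem IsPair.smul_right [Γ.FiniteIndex] {φ ψ : Additive Γ →+ R} {b : R} (c : R)
    (h : IsPair Γ φ ψ b) : IsPair Γ φ (c • ψ) (c * b) := by
  obtain ⟨u, h₁, hu, hh, rfl⟩ := h
  exact ⟨u, _, hu, Pair_isTriPot_smul c hh, Pair_pairOf_smul_right c u h₁⟩

/-- change of coefficients. -/
theorem IsPair.map [Γ.FiniteIndex] {R' : Type*} [CommRing R'] (e : R →+* R')
    {φ ψ : Additive Γ →+ R} {b : R} (h : IsPair Γ φ ψ b) :
    IsPair Γ (e.toAddMonoidHom.comp φ) (e.toAddMonoidHom.comp ψ) (e b) := by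
  obtain ⟨u, h₁, hu, hh, rfl⟩ := h
  refine ⟨fun g => e (u g), fun g => e (h₁ g), ⟨fun γ g => ?_, fun g => ?_, fun g => ?_⟩,
    ⟨fun γ g => ?_, fun g => ?_, fun g => ?_⟩, ?_⟩
  · simp only [hu.left, map_add]
    rfl
  · simp only [hu.right_T]
  · simp only [hu.right_neg]
  · simp only [hh.left, map_add]
    rfl
  · simp only [hh.right_U]
  · simp only [hh.right_neg]
  · unfold pairOf
    have e1 := sumQ_map Γ e.toAddMonoidHom
      (fun g => (u (g * S) - u g) * (h₁ g - h₁ (g * S)))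
    change _ = e.toAddMonoidHom _
    rw [← e1]
    congr 1
    funext g
    change _ = e _
    rw [map_mul, map_sub, map_sub]

end Fermat.Agent.S41.P
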