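import Fermat.Agent.S41.P.Pot

/-!
# S41, module P, file PairA: the pairing does not depend on the potentials
-/

set_option autoImplicit false

open Matrix.SpecialLinearGroup ModularGroup
open scoped MatrixGroups
open Fermat.Agent.S16.Crossing (Uu)
open Fermat.Agent.Lib.EllPar (KillsEllPar)

namespace Fermat.Agent.S41.P

variable (Γ : Subgroup SL(2, ℤ)) {R : Type*} [CommRing R]

variable {Γ}

theorem PairA_S_mul_S : S * S = (-1 : SL(2, ℤ)) := by
  rw [← pow_two]
  exact Fermat.Agent.S16.Crossing.S_sq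

theorem PairA_mul_S_S (g : SL(2, ℤ)) : g * S * S = -g := by
  rw [mul_assoc, PairA_S_mul_S, mul_neg, mul_one]

theorem IsTriPot.mul_T {ψ : Additive Γ →+ R} {h : SL(2, ℤ) → R} (hh : IsTriPot Γ ψ h)
    (g : SL(2, ℤ)) : h (g * T) = h g + (h (g * T) - h (g * T * S)) := by
  have e : g * T * S = -(g * Uu⁻¹) := by
    rw [Fermat.Agent.S16.Crossing.T_eq, ← mul_assoc, PairA_mul_S_S]
  have h1 : h (g * Uu⁻¹) = h g := by
    have := hh.right_U (g * Uu⁻¹)
    rw [inv_mul_cancel_right] at this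
    exact this.symm
  rw [e, hh.right_neg, h1]
  ring

theorem IsCuspPot.mul_S {φ : Additive Γ →+ R} {u : SL(2, ℤ) → R} (hu : IsCuspPot Γ φ u)
    (g : SL(2, ℤ)) : u (g * S) = u (g * Uu) := by
  have := hu.right_T (g * Uu)
  rw [← this]
  congr 1
  rw [Fermat.Agent.S16.Crossing.Uu, mul_assoc, inv_mul_cancel_right]

theorem PairA_sumQ_neg [Γ.FiniteIndex] (f : SL(2, ℤ) → R) :
    sumQ Γ (fun g => - f g) = - sumQ Γ f :=
  sumQ_map Γ (negAddMonoidHom : R →+ R) f

theorem PairA_shift_zero [Γ.FiniteIndex] (f : SL(2, ℤ) → R)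
    (hf : ∀ (γ : Γ) g, f ((γ : SL(2, ℤ)) * g) = f g) (a : SL(2, ℤ)) :
    sumQ Γ (fun g => f g - f (g * a)) = 0 := by
  rw [sumQ_sub Γ f (fun g => f (g * a)), sumQ_mul_right Γ f hf a, sub_self]

/-- a left `Γ`-invariant, right `T`-invariant function is orthogonal to `h g - h (g S)`. -/
theorem PairA_cusp_zero [Γ.FiniteIndex] {ψ : Additive Γ →+ R} (hψ : KillsEllPar Γ ψ)
    {h : SL(2, ℤ) → R} (hh : IsTriPot Γ ψ h) (κ : SL(2, ℤ) → R)
    (hκl : ∀ (γ : Γ) g, κ ((γ : SL(2, ℤ)) * g) = κ g) (hκT : ∀ g, κ (g * T) = κ g) :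
    sumQ Γ (fun g => κ g * (h g - h (g * S))) = 0 := by
  obtain ⟨w, hw⟩ := exists_isCuspPot Γ ψ hψ
  have hm : ∀ g, h g - h (g * S) = (h g - w g) - (h (g * T⁻¹) - w (g * T⁻¹)) := by
    intro g
    have h1 := hh.mul_T (g * T⁻¹)
    rw [inv_mul_cancel_right] at h1
    have h2 := hw.right_T (g * T⁻¹)
    rw [inv_mul_cancel_right] at h2
    linear_combination -h1 + h2
  have hκT' : ∀ g, κ (g * T⁻¹) = κ g := by
    intro g
    have := hκT (g * T⁻¹)
    rw [inv_mul_cancel_right] at this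
    exact this.symm
  have hinv : ∀ (γ : Γ) g, (fun x => κ x * (h x - w x)) ((γ : SL(2, ℤ)) * g) =
      (fun x => κ x * (h x - w x)) g := by
    intro γ g
    simp only
    rw [hκl, hh.left, hw.left]
    ring
  rw [← PairA_shift_zero (fun x => κ x * (h x - w x)) hinv T⁻¹]
  congr 1
  funext g
  rw [hm, hκT']
  ring

/-- a left `Γ`-invariant, right `U`-invariant function is orthogonal to `u (g S) - u g`. -/
theorem PairA_tri_zero [Γ.FiniteIndex] {φ : Additive Γ →+ R} (hφ : KillsEllPar Γ φ)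
    {u : SL(2, ℤ) → R} (hu : IsCuspPot Γ φ u) (θ : SL(2, ℤ) → R)
    (hθl : ∀ (γ : Γ) g, θ ((γ : SL(2, ℤ)) * g) = θ g) (hθU : ∀ g, θ (g * Uu) = θ g) :
    sumQ Γ (fun g => (u (g * S) - u g) * θ g) = 0 := by
  obtain ⟨w, hw⟩ := exists_isTriPot Γ φ hφ
  have hinv : ∀ (γ : Γ) g, (fun x => (u x - w x) * θ x) ((γ : SL(2, ℤ)) * g) =
      (fun x => (u x - w x) * θ x) g := by
    intro γ g
    simp only
    rw [hθl, hu.left, hw.left]
    ring
  rw [← neg_eq_zero, ← PairA_sumQ_neg, ← PairA_shift_zero (fun x => (u x - w x) * θ x) hinv Uu]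
  congr 1
  funext g
  rw [hu.mul_S, hθU, hw.right_U]
  ring

/-- change of the cusp potential. -/
theorem PairA_change_u [Γ.FiniteIndex] {φ ψ : Additive Γ →+ R} (hψ : KillsEllPar Γ ψ)
    {u u' h : SL(2, ℤ) → R} (hu : IsCuspPot Γ φ u) (hu' : IsCuspPot Γ φ u')
    (hh : IsTriPot Γ ψ h) : pairOf Γ u' h = pairOf Γ u h := by
  have hκl : ∀ (γ : Γ) g, (fun x => u' x - u x) ((γ : SL(2, ℤ)) * g) = (fun x => u' x - u x) g := by
    intro γ g
    simp only
    rw [hu.left, hu'.left]
    ring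
  have hκT : ∀ g, (fun x => u' x - u x) (g * T) = (fun x => u' x - u x) g := by
    intro g
    simp only
    rw [hu.right_T, hu'.right_T]
  have hZ := PairA_cusp_zero hψ hh (fun x => u' x - u x) hκl hκT
  have hinv : ∀ (γ : Γ) g, (fun x => -((u' x - u x) * (h x - h (x * S)))) ((γ : SL(2, ℤ)) * g) =
      (fun x => -((u' x - u x) * (h x - h (x * S)))) g := by
    intro γ g
    simp only
    rw [hu.left, hu'.left, hh.left, mul_assoc, hh.left]
    ring
  have hZ' : sumQ Γ (fun g => (u' (g * S) - u (g * S)) * (h g - h (g * S))) = 0 := by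
    calc sumQ Γ (fun g => (u' (g * S) - u (g * S)) * (h g - h (g * S)))
        = sumQ Γ (fun g => (fun x => -((u' x - u x) * (h x - h (x * S)))) (g * S)) := by
          congr 1
          funext g
          simp only
          rw [PairA_mul_S_S, hh.right_neg]
          ring
      _ = sumQ Γ (fun x => -((u' x - u x) * (h x - h (x * S)))) :=
          sumQ_mul_right Γ (fun x => -((u' x - u x) * (h x - h (x * S)))) hinv S
      _ = 0 := by rw [PairA_sumQ_neg, hZ, neg_zero]
  rw [← sub_eq_zero]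
  unfold pairOf
  rw [← sumQ_sub]
  calc sumQ Γ (fun g => (u' (g * S) - u' g) * (h g - h (g * S)) -
        (u (g * S) - u g) * (h g - h (g * S)))
      = sumQ Γ (fun g => (fun g => (u' (g * S) - u (g * S)) * (h g - h (g * S))) g -
          (fun g => (u' g - u g) * (h g - h (g * S))) g) := by
        congr 1
        funext g
        simp only
        ring
    _ = 0 := by rw [sumQ_sub, hZ', hZ, sub_self]

/-- change of the triangle potential. -/
theorem PairA_change_h [Γ.FiniteIndex] {φ ψ : Additive Γ →+ R} (hφ : KillsEllPar Γ φ)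
    {u h h' : SL(2, ℤ) → R} (hu : IsCuspPot Γ φ u) (hh : IsTriPot Γ ψ h)
    (hh' : IsTriPot Γ ψ h') : pairOf Γ u h' = pairOf Γ u h := by
  have hθl : ∀ (γ : Γ) g, (fun x => h' x - h x) ((γ : SL(2, ℤ)) * g) = (fun x => h' x - h x) g := by
    intro γ g
    simp only
    rw [hh.left, hh'.left]
    ring
  have hθU : ∀ g, (fun x => h' x - h x) (g * Uu) = (fun x => h' x - h x) g := by
    intro g
    simp only
    rw [hh.right_U, hh'.right_U]
  have hZ := PairA_tri_zero hφ hu (fun x => h' x - h x) hθl hθU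
  have hinv : ∀ (γ : Γ) g, (fun x => -((u (x * S) - u x) * (h' x - h x))) ((γ : SL(2, ℤ)) * g) =
      (fun x => -((u (x * S) - u x) * (h' x - h x))) g := by
    intro γ g
    simp only
    rw [hh.left, hh'.left, hu.left, mul_assoc, hu.left]
    ring
  have hZ' : sumQ Γ (fun g => (u (g * S) - u g) * (h' (g * S) - h (g * S))) = 0 := by
    calc sumQ Γ (fun g => (u (g * S) - u g) * (h' (g * S) - h (g * S)))
        = sumQ Γ (fun g => (fun x => -((u (x * S) - u x) * (h' x - h x))) (g * S)) := by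
          congr 1
          funext g
          simp only
          rw [PairA_mul_S_S, hu.right_neg]
          ring
      _ = sumQ Γ (fun x => -((u (x * S) - u x) * (h' x - h x))) :=
          sumQ_mul_right Γ (fun x => -((u (x * S) - u x) * (h' x - h x))) hinv S
      _ = 0 := by rw [PairA_sumQ_neg, hZ, neg_zero]
  rw [← sub_eq_zero]
  unfold pairOf
  rw [← sumQ_sub]
  calc sumQ Γ (fun g => (u (g * S) - u g) * (h' g - h' (g * S)) -
        (u (g * S) - u g) * (h g - h (g * S)))
      = sumQ Γ (fun g => (fun g => (u (g * S) - u g) * (h' g - h g)) g -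
          (fun g => (u (g * S) - u g) * (h' (g * S) - h (g * S))) g) := by
        congr 1
        funext g
        simp only
        ring
    _ = 0 := by rw [sumQ_sub, hZ', hZ, sub_self]

/-- independence of the potentials. -/
theorem pairOf_eq [Γ.FiniteIndex] {φ ψ : Additive Γ →+ R} (hφ : KillsEllPar Γ φ)
    (hψ : KillsEllPar Γ ψ) {u u' h h' : SL(2, ℤ) → R} (hu : IsCuspPot Γ φ u)
    (hu' : IsCuspPot Γ φ u') (hh : IsTriPot Γ ψ h) (hh' : IsTriPot Γ ψ h') :
    pairOf Γ u h = pairOf Γ u' h' := by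
  rw [PairA_change_h hφ hu' hh hh', PairA_change_u hψ hu hu' hh]

end Fermat.Agent.S41.P
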