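import Fermat.Agent.S41.P.Defs
import Fermat.Agent.GR.A.SL2Fix2

/-!
# S41, module P, file PosUnip: positive unipotent elements
-/

set_option autoImplicit false

open Matrix.SpecialLinearGroup ModularGroup
open scoped MatrixGroups
open Fermat.Agent.S16.Crossing (Uu)
open Fermat.Agent.Lib.EllPar (KillsEllPar)

namespace Fermat.Agent.S41.P

variable (Γ : Subgroup SL(2, ℤ)) {R : Type*}

theorem PosUnip_mul_apply (g g' : SL(2, ℤ)) (i j : Fin 2) :
    (g * g') i j = g i 0 * g' 0 j + g i 1 * g' 1 j := by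
  rw [Matrix.SpecialLinearGroup.coe_mul, Matrix.mul_apply, Fin.sum_univ_two]

theorem PosUnip_det (g : SL(2, ℤ)) : g 0 0 * g 1 1 - g 0 1 * g 1 0 = 1 := by
  have := g.det_coe
  rwa [Matrix.det_fin_two] at this

/-- the entries of `g T ^ k g⁻¹`. -/
theorem PosUnip_entries (π g : SL(2, ℤ)) (k : ℤ) (h : π * g = g * T ^ k) :
    π 0 0 = 1 - g 0 0 * g 1 0 * k ∧ π 0 1 = g 0 0 ^ 2 * k ∧ π 1 0 = -(g 1 0 ^ 2 * k) ∧
      π 1 1 = 1 + g 0 0 * g 1 0 * k := by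
  have hT00 : (T ^ k) 0 0 = 1 := by simp [coe_T_zpow]
  have hT01 : (T ^ k) 0 1 = k := by simp [coe_T_zpow]
  have hT10 : (T ^ k) 1 0 = 0 := by simp [coe_T_zpow]
  have hT11 : (T ^ k) 1 1 = 1 := by simp [coe_T_zpow]
  have hd := PosUnip_det g
  have e00 := congrArg (fun m : SL(2, ℤ) => m 0 0) h
  have e01 := congrArg (fun m : SL(2, ℤ) => m 0 1) h
  have e10 := congrArg (fun m : SL(2, ℤ) => m 1 0) h
  have e11 := congrArg (fun m : SL(2, ℤ) => m 1 1) h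
  simp only [PosUnip_mul_apply, hT00, hT01, hT10, hT11] at e00 e01 e10 e11
  refine ⟨?_, ?_, ?_, ?_⟩
  · linear_combination g 1 1 * e00 - g 1 0 * e01 + (1 - π 0 0) * hd
  · linear_combination g 0 0 * e01 - g 0 1 * e00 - π 0 1 * hd
  · linear_combination g 1 1 * e10 - g 1 0 * e11 - π 1 0 * hd
  · linear_combination g 0 0 * e11 - g 0 1 * e10 + (1 - π 1 1) * hd

theorem PosUnip_sq_add_sq_pos (g : SL(2, ℤ)) : 0 < g 0 0 ^ 2 + g 1 0 ^ 2 := by
  have hd := PosUnip_det g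
  by_contra hcon
  have h0 : g 0 0 ^ 2 + g 1 0 ^ 2 = 0 :=
    le_antisymm (not_lt.1 hcon) (add_nonneg (sq_nonneg _) (sq_nonneg _))
  have ha : g 0 0 = 0 := by nlinarith [sq_nonneg (g 0 0), sq_nonneg (g 1 0)]
  have hc : g 1 0 = 0 := by nlinarith [sq_nonneg (g 0 0), sq_nonneg (g 1 0)]
  rw [ha, hc] at hd
  simp at hd

theorem PosUnip_mapGL_apply (g : SL(2, ℤ)) (i j : Fin 2) :
    ((mapGL ℝ g : GL (Fin 2) ℝ) : Matrix (Fin 2) (Fin 2) ℝ) i j = ((g i j : ℤ) : ℝ) := by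
  rw [mapGL_coe_matrix]
  rfl

/-- positive unipotent elements are the conjugates of `T ^ k`, `k > 0`
(`GR/A/SL2Fix2.lean : exists_conj_T_of_trace`). -/
theorem isPosUnip_iff (π : SL(2, ℤ)) :
    IsPosUnip π ↔ ∃ (g : SL(2, ℤ)) (k : ℕ), 0 < k ∧ π * g = g * T ^ k := by
  constructor
  · rintro ⟨htr, hpos⟩
    obtain ⟨δ, k, hk⟩ := Fermat.Agent.GR.A.SL2Fix2_exists_conj_T_of_trace_eq_two π htr
    have h : π * δ = δ * T ^ k := by rw [hk]; group
    obtain ⟨-, h01, h10, -⟩ := PosUnip_entries π δ k h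
    have hsq := PosUnip_sq_add_sq_pos δ
    have hk0 : 0 < k := by
      rw [h01, h10] at hpos
      have e : δ 0 0 ^ 2 * k - -(δ 1 0 ^ 2 * k) = (δ 0 0 ^ 2 + δ 1 0 ^ 2) * k := by ring
      rw [e] at hpos
      exact (pos_iff_pos_of_mul_pos hpos).1 hsq
    refine ⟨δ, k.toNat, by omega, ?_⟩
    rw [h, ← zpow_natCast, Int.toNat_of_nonneg hk0.le]
  · rintro ⟨g, k, hk, h⟩
    rw [← zpow_natCast] at h
    obtain ⟨h00, h01, h10, h11⟩ := PosUnip_entries π g k h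
    have hsq := PosUnip_sq_add_sq_pos g
    refine ⟨?_, ?_⟩
    · rw [Matrix.trace_fin_two, h00, h11]
      ring
    · rw [h01, h10]
      have e : g 0 0 ^ 2 * (k : ℤ) - -(g 1 0 ^ 2 * (k : ℤ)) = (g 0 0 ^ 2 + g 1 0 ^ 2) * k := by ring
      rw [e]
      exact mul_pos hsq (by exact_mod_cast hk)

theorem PosUnip_conj_aux (w : GL (Fin 2) ℝ) (hw : 0 < (w.det : ℝ)) (π π' : SL(2, ℤ))
    (h : w * mapGL ℝ π = mapGL ℝ π' * w) (hπ : IsPosUnip π) : IsPosUnip π' := by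
  obtain ⟨g, k, hk, hg⟩ := (isPosUnip_iff π).1 hπ
  rw [← zpow_natCast] at hg
  obtain ⟨h00, h01, h10, h11⟩ := PosUnip_entries π g k hg
  have hgd := PosUnip_det g
  have hM := congrArg (fun m : GL (Fin 2) ℝ => (m : Matrix (Fin 2) (Fin 2) ℝ)) h
  simp only [Units.val_mul] at hM
  have e00 := congrFun (congrFun hM 0) 0
  have e01 := congrFun (congrFun hM 0) 1
  have e10 := congrFun (congrFun hM 1) 0
  have e11 := congrFun (congrFun hM 1) 1
  simp only [Matrix.mul_apply, Fin.sum_univ_two, PosUnip_mapGL_apply, h00, h01, h10, h11]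
    at e00 e01 e10 e11
  have hdet : (w.det : ℝ) = (w : Matrix (Fin 2) (Fin 2) ℝ) 0 0 * (w : Matrix (Fin 2) (Fin 2) ℝ) 1 1 -
      (w : Matrix (Fin 2) (Fin 2) ℝ) 0 1 * (w : Matrix (Fin 2) (Fin 2) ℝ) 1 0 := by
    rw [Matrix.GeneralLinearGroup.val_det_apply, Matrix.det_fin_two]
  rw [hdet] at hw
  generalize (w : Matrix (Fin 2) (Fin 2) ℝ) 0 0 = A at *
  generalize (w : Matrix (Fin 2) (Fin 2) ℝ) 0 1 = B at *
  generalize (w : Matrix (Fin 2) (Fin 2) ℝ) 1 0 = C at *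
  generalize (w : Matrix (Fin 2) (Fin 2) ℝ) 1 1 = D at *
  push_cast at e00 e01 e10 e11
  have hgd' : ((g 0 0 : ℤ) : ℝ) * ((g 1 1 : ℤ) : ℝ) - ((g 0 1 : ℤ) : ℝ) * ((g 1 0 : ℤ) : ℝ) = 1 := by
    exact_mod_cast hgd
  generalize ((g 0 0 : ℤ) : ℝ) = a at *
  generalize ((g 1 0 : ℤ) : ℝ) = c at *
  have hk' : (0 : ℝ) < (k : ℝ) := by exact_mod_cast hk
  have htr : (((π' 0 0 : ℤ) : ℝ) + ((π' 1 1 : ℤ) : ℝ)) * (A * D - B * C) = 2 * (A * D - B * C) := by
    linear_combination (-D) * e00 + C * e01 + B * e10 - A * e11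
  have hpos : (((π' 0 1 : ℤ) : ℝ) - ((π' 1 0 : ℤ) : ℝ)) * (A * D - B * C) =
      k * ((A * a + B * c) ^ 2 + (C * a + D * c) ^ 2) := by
    linear_combination B * e00 - A * e01 + D * e10 - C * e11
  have hsum : 0 < (A * a + B * c) ^ 2 + (C * a + D * c) ^ 2 := by
    by_contra hcon
    have h0 : (A * a + B * c) ^ 2 + (C * a + D * c) ^ 2 = 0 :=
      le_antisymm (not_lt.1 hcon) (add_nonneg (sq_nonneg _) (sq_nonneg _))
    have h1 : A * a + B * c = 0 := by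
      nlinarith [sq_nonneg (A * a + B * c), sq_nonneg (C * a + D * c)]
    have h2 : C * a + D * c = 0 := by
      nlinarith [sq_nonneg (A * a + B * c), sq_nonneg (C * a + D * c)]
    have ha : (A * D - B * C) * a = 0 := by linear_combination D * h1 - B * h2
    have hc : (A * D - B * C) * c = 0 := by linear_combination A * h2 - C * h1
    have ha' : a = 0 := (mul_eq_zero.1 ha).resolve_left hw.ne'
    have hc' : c = 0 := (mul_eq_zero.1 hc).resolve_left hw.ne'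
    rw [ha', hc'] at hgd'
    simp at hgd'
  refine ⟨?_, ?_⟩
  · rw [Matrix.trace_fin_two]
    have := mul_right_cancel₀ hw.ne' htr
    exact_mod_cast this
  · have h3 : 0 < (((π' 0 1 : ℤ) : ℝ) - ((π' 1 0 : ℤ) : ℝ)) * (A * D - B * C) := by
      rw [hpos]
      exact mul_pos hk' hsum
    have h4 : 0 < ((π' 0 1 : ℤ) : ℝ) - ((π' 1 0 : ℤ) : ℝ) := (pos_iff_pos_of_mul_pos h3).2 hw
    exact_mod_cast h4

/-- positivity is invariant under conjugation by real matrices of positive determinant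
(`IsPosUnip π ↔ trace = 2 ∧ π ≠ 1 ∧ ∀ v, det (v, π v) ≤ 0`). -/
theorem isPosUnip_conj (w : GL (Fin 2) ℝ) (hw : 0 < (w.det : ℝ)) (π π' : SL(2, ℤ))
    (h : w * mapGL ℝ π = mapGL ℝ π' * w) : IsPosUnip π ↔ IsPosUnip π' := by
  refine ⟨PosUnip_conj_aux w hw π π' h, PosUnip_conj_aux w⁻¹ ?_ π' π ?_⟩
  · rw [map_inv, Units.val_inv_eq_inv_val]
    exact inv_pos.2 hw
  · rw [inv_mul_eq_iff_eq_mul, ← mul_assoc, h, mul_assoc, mul_inv_cancel, mul_one]

end Fermat.Agent.S41.P
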