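import Fermat.Agent.S41.P.SumQ

/-!
# S41, module P, file Pot: existence of potentials
-/

set_option autoImplicit false

open Matrix.SpecialLinearGroup ModularGroup
open scoped MatrixGroups
open Fermat.Agent.S16.Crossing (Uu)
open Fermat.Agent.Lib.EllPar (KillsEllPar)

namespace Fermat.Agent.S41.P

variable (Γ : Subgroup SL(2, ℤ)) {R : Type*}

/-- abstract lemma: a hom killing all stabilisers has a potential. -/
theorem exists_potential {Γ₀ Y A : Type*} [Group Γ₀] [MulAction Γ₀ Y] [AddCommGroup A]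
    (φ : Additive Γ₀ →+ A)
    (h : ∀ (γ : Γ₀) (y : Y), γ • y = y → φ (Additive.ofMul γ) = 0) :
    ∃ u : Y → A, ∀ (γ : Γ₀) (y : Y), u (γ • y) = u y + φ (Additive.ofMul γ) := by
  classical
  let r : Y → Y := fun y => Quotient.out (Quotient.mk (MulAction.orbitRel Γ₀ Y) y)
  have hr : ∀ y, ∃ c : Γ₀, c • r y = y := by
    intro y
    have h1 : (MulAction.orbitRel Γ₀ Y) (r y) y := Quotient.mk_out (s := MulAction.orbitRel Γ₀ Y) y
    have h2 : y ∈ MulAction.orbit Γ₀ (r y) := by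
      have h3 : (MulAction.orbitRel Γ₀ Y) y (r y) := (MulAction.orbitRel Γ₀ Y).symm h1
      rwa [MulAction.orbitRel_apply] at h3
    exact h2
  choose c hc using hr
  have hrr : ∀ (γ : Γ₀) (y : Y), r (γ • y) = r y := by
    intro γ y
    have : Quotient.mk (MulAction.orbitRel Γ₀ Y) (γ • y) = Quotient.mk (MulAction.orbitRel Γ₀ Y) y := by
      apply Quotient.sound
      change (MulAction.orbitRel Γ₀ Y) (γ • y) y
      rw [MulAction.orbitRel_apply]
      exact ⟨γ, rfl⟩
    simp only [r, this]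
  refine ⟨fun y => φ (Additive.ofMul (c y)), fun γ y => ?_⟩
  have h1 : ((c (γ • y))⁻¹ * γ * c y) • r y = r y := by
    rw [mul_smul, mul_smul, hc y, inv_smul_eq_iff]
    conv_rhs => rw [← hrr γ y]
    exact (hc (γ • y)).symm
  have h2 := h _ _ h1
  rw [ofMul_mul, ofMul_mul, ofMul_inv, map_add, map_add, map_neg] at h2
  have h3 : φ (Additive.ofMul (c (γ • y))) = φ (Additive.ofMul γ) + φ (Additive.ofMul (c y)) := by
    have := congrArg (fun t => φ (Additive.ofMul (c (γ • y))) + t) h2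
    simp only [add_zero] at this
    rw [← this]
    abel
  show φ (Additive.ofMul (c (γ • y))) = φ (Additive.ofMul (c y)) + φ (Additive.ofMul γ)
  rw [h3, add_comm]

/-- potentials which are right invariant under a subgroup `H`. -/
theorem Pot_exists_of_subgroup [AddCommGroup R] (H : Subgroup SL(2, ℤ)) (φ : Additive Γ →+ R)
    (hH : ∀ (γ : Γ) (g : SL(2, ℤ)), g⁻¹ * (γ : SL(2, ℤ)) * g ∈ H → φ (Additive.ofMul γ) = 0) :
    ∃ u : SL(2, ℤ) → R,
      (∀ (γ : Γ) (g : SL(2, ℤ)), u ((γ : SL(2, ℤ)) * g) = u g + φ (Additive.ofMul γ)) ∧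
      ∀ (g h : SL(2, ℤ)), h ∈ H → u (g * h) = u g := by
  obtain ⟨u, hu⟩ := exists_potential (Γ₀ := Γ) (Y := SL(2, ℤ) ⧸ H) φ (by
    intro γ y hy
    induction y using QuotientGroup.induction_on with
    | H g =>
      apply hH γ g
      have h1 : ((((γ : SL(2, ℤ)) * g : SL(2, ℤ)) : SL(2, ℤ) ⧸ H)) = (g : SL(2, ℤ) ⧸ H) := hy
      rw [eq_comm, QuotientGroup.eq] at h1
      rwa [mul_assoc])
  refine ⟨fun g => u (g : SL(2, ℤ) ⧸ H), fun γ g => ?_, fun g h hh => ?_⟩
  · exact hu γ (g : SL(2, ℤ) ⧸ H)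
  · show u ((g * h : SL(2, ℤ)) : SL(2, ℤ) ⧸ H) = u (g : SL(2, ℤ) ⧸ H)
    rw [QuotientGroup.mk_mul_of_mem g hh]

theorem Pot_mem_closure (a : SL(2, ℤ)) {h : SL(2, ℤ)}
    (hh : h ∈ Subgroup.closure ({a, -1} : Set SL(2, ℤ))) : ∃ k : ℤ, h = a ^ k ∨ h = -a ^ k := by
  induction hh using Subgroup.closure_induction with
  | mem y hy =>
    rcases hy with rfl | hy
    · exact ⟨1, Or.inl (zpow_one _).symm⟩
    · rw [Set.mem_singleton_iff] at hy
      subst hy
      exact ⟨0, Or.inr (by rw [zpow_zero])⟩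
  | one => exact ⟨0, Or.inl (zpow_zero _).symm⟩
  | mul x y _ _ ihx ihy =>
    obtain ⟨k, hk⟩ := ihx
    obtain ⟨l, hl⟩ := ihy
    refine ⟨k + l, ?_⟩
    rw [zpow_add]
    rcases hk with rfl | rfl <;> rcases hl with rfl | rfl
    · exact Or.inl rfl
    · exact Or.inr (mul_neg _ _)
    · exact Or.inr (neg_mul _ _)
    · exact Or.inl (neg_mul_neg _ _)
  | inv x _ ihx =>
    obtain ⟨k, hk⟩ := ihx
    refine ⟨-k, ?_⟩
    rw [zpow_neg]
    rcases hk with rfl | rfl
    · exact Or.inl rfl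
    · right
      rw [inv_eq_iff_mul_eq_one, neg_mul_neg, mul_inv_cancel]

theorem Pot_neg_eq (g : SL(2, ℤ)) : -g = g * (-1) := by
  rw [mul_neg, mul_one]

theorem exists_isCuspPot [AddCommGroup R] (φ : Additive Γ →+ R) (hφ : KillsEllPar Γ φ) :
    ∃ u, IsCuspPot Γ φ u := by
  obtain ⟨u, hu1, hu2⟩ := Pot_exists_of_subgroup Γ (Subgroup.closure ({T, -1} : Set SL(2, ℤ))) φ (by
    intro γ g hg
    apply hφ
    right
    have h1 : ((γ : SL(2, ℤ)) : Matrix (Fin 2) (Fin 2) ℤ).trace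
        = ((g⁻¹ * (γ : SL(2, ℤ)) * g : SL(2, ℤ)) : Matrix (Fin 2) (Fin 2) ℤ).trace := by
      rw [Matrix.SpecialLinearGroup.coe_mul, Matrix.trace_mul_comm,
        ← Matrix.SpecialLinearGroup.coe_mul, mul_inv_cancel_left]
    rw [h1]
    obtain ⟨k, hk | hk⟩ := Pot_mem_closure T hg
    · rw [hk, ModularGroup.coe_T_zpow]
      simp [Matrix.trace_fin_two]
    · rw [hk, Matrix.SpecialLinearGroup.coe_neg, ModularGroup.coe_T_zpow]
      simp [Matrix.trace_fin_two])
  refine ⟨u, hu1, fun g => hu2 g T (Subgroup.subset_closure (by simp)), fun g => ?_⟩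
  rw [Pot_neg_eq]
  exact hu2 g (-1) (Subgroup.subset_closure (by simp))

theorem Pot_Uu_pow_three : Uu ^ 3 = 1 := by
  ext i j
  fin_cases i <;> fin_cases j <;>
    simp [Uu, pow_succ, Matrix.mul_apply, Fin.sum_univ_two, ModularGroup.coe_S]

/-- variant: only the elements of finite order have to be killed. -/
theorem exists_isTriPot_of_finOrder [AddCommGroup R] (ψ : Additive Γ →+ R)
    (hψ : ∀ γ : Γ, IsOfFinOrder γ → ψ (Additive.ofMul γ) = 0) :
    ∃ h, IsTriPot Γ ψ h := by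
  obtain ⟨u, hu1, hu2⟩ := Pot_exists_of_subgroup Γ (Subgroup.closure ({Uu, -1} : Set SL(2, ℤ))) ψ (by
    intro γ g hg
    apply hψ
    rw [← Submonoid.isOfFinOrder_coe (H := Γ.toSubmonoid), isOfFinOrder_iff_pow_eq_one]
    change ∃ n, 0 < n ∧ (γ : SL(2, ℤ)) ^ n = 1
    refine ⟨6, by norm_num, ?_⟩
    have h6 : (g⁻¹ * (γ : SL(2, ℤ)) * g) ^ 6 = 1 := by
      have hU : ∀ k : ℤ, (Uu ^ k) ^ 6 = 1 := by
        intro k
        rw [← zpow_natCast, ← zpow_mul, mul_comm, zpow_mul, zpow_natCast,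
          show (6 : ℕ) = 3 * 2 from rfl, pow_mul, Pot_Uu_pow_three, one_pow, one_zpow]
      obtain ⟨k, hk | hk⟩ := Pot_mem_closure Uu hg
      · rw [hk, hU]
      · rw [hk, Even.neg_pow (by decide), hU]
    have h7 : (γ : SL(2, ℤ)) = g * (g⁻¹ * (γ : SL(2, ℤ)) * g) * g⁻¹ := by group
    rw [h7, conj_pow, h6]
    group)
  refine ⟨u, hu1, fun g => hu2 g Uu (Subgroup.subset_closure (by simp)), fun g => ?_⟩
  rw [Pot_neg_eq]
  exact hu2 g (-1) (Subgroup.subset_closure (by simp))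

theorem exists_isTriPot [AddCommGroup R] (ψ : Additive Γ →+ R) (hψ : KillsEllPar Γ ψ) :
    ∃ h, IsTriPot Γ ψ h := by
  refine exists_isTriPot_of_finOrder Γ ψ fun γ hγ => hψ γ (Or.inl ?_)
  exact (Submonoid.isOfFinOrder_coe (H := Γ.toSubmonoid) (x := γ)).2 hγ

theorem Pot_const_of_closure {A : Type*} (f : SL(2, ℤ) → A) (s : Set SL(2, ℤ))
    (hs : Subgroup.closure s = ⊤) (hf : ∀ a ∈ s, ∀ g, f (g * a) = f g) (g g' : SL(2, ℤ)) :
    f g = f g' := by
  have key : ∀ (a : SL(2, ℤ)) (y : SL(2, ℤ)), f (y * a) = f y := by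
    intro a
    have ha : a ∈ Subgroup.closure s := by rw [hs]; trivial
    induction ha using Subgroup.closure_induction with
    | mem y hy => exact hf y hy
    | one => intro y; rw [mul_one]
    | mul a b _ _ iha ihb => intro y; rw [← mul_assoc, ihb, iha]
    | inv a _ iha => intro y; rw [← iha (y * a⁻¹), inv_mul_cancel_right]
  rw [← key (g⁻¹ * g') g, mul_inv_cancel_left]

/-- a function on `G` right invariant under `S` and `T` is constant. -/
theorem const_of_right_invariant {A : Type*} (f : SL(2, ℤ) → A) (hS : ∀ g, f (g * S) = f g)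
    (hT : ∀ g, f (g * T) = f g) (g g' : SL(2, ℤ)) : f g = f g' := by
  refine Pot_const_of_closure f {S, T} SpecialLinearGroup.SL2Z_generators ?_ g g'
  rintro a (rfl | ha)
  · exact hS
  · rw [Set.mem_singleton_iff] at ha
    subst ha
    exact hT

/-- a function on `G` right invariant under `S` and `U` is constant. -/
theorem const_of_right_invariant' {A : Type*} (f : SL(2, ℤ) → A) (hS : ∀ g, f (g * S) = f g)
    (hU : ∀ g, f (g * Uu) = f g) (g g' : SL(2, ℤ)) : f g = f g' := by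
  refine Pot_const_of_closure f {S, Uu} Fermat.Agent.S16.Crossing.closure_S_Uu ?_ g g'
  rintro a (rfl | ha)
  · exact hS
  · rw [Set.mem_singleton_iff] at ha
    subst ha
    exact hU

end Fermat.Agent.S41.P
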